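import Mathlib

/-!
# Algebraic core of the Swinnerton-Dyer theorem (constants modulo `ℓ ≥ 5` at level one)

Pure algebra in `κ[Q, R]` and `κ⟦X⟧` (no modular forms): see `Fermat.Agent.S16SwD.alg_core`.
-/

namespace Fermat.Agent.S16SwD

open MvPolynomial

section Factor

variable {σ : Type*} {R : Type*} [CommRing R] (w : σ → ℕ)

/-- the grading homomorphism `X i ↦ X i * T ^ w i` -/
noncomputable def gradHom : MvPolynomial σ R →ₐ[R] Polynomial (MvPolynomial σ R) :=
  aeval (fun i => Polynomial.C (X i) * Polynomial.X ^ (w i))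

lemma gradHom_monomial (d : σ →₀ ℕ) (r : R) :
    gradHom w (monomial d r) = Polynomial.C (monomial d r) * Polynomial.X ^ (Finsupp.weight w d) := by
  classical
  unfold gradHom
  rw [aeval_monomial]
  have h1 : (d.prod fun i k => (Polynomial.C (X i : MvPolynomial σ R) * Polynomial.X ^ (w i)) ^ k)
      = Polynomial.C (d.prod fun i k => (X i : MvPolynomial σ R) ^ k) *
        Polynomial.X ^ (Finsupp.weight w d) := by
    rw [Finsupp.weight_apply]
    simp only [Finsupp.prod, Finsupp.sum, mul_pow, Finset.prod_mul_distrib, map_prod, map_pow,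
      ← pow_mul, Finset.prod_pow_eq_pow_sum, smul_eq_mul]
    congr 2
    exact Finset.sum_congr rfl (fun i _ => mul_comm _ _)
  rw [h1, ← mul_assoc]
  congr 1
  rw [monomial_eq, map_mul]
  rfl

lemma gradHom_of_isWeightedHomogeneous {P : MvPolynomial σ R} {n : ℕ}
    (h : IsWeightedHomogeneous w P n) :
    gradHom w P = Polynomial.C P * Polynomial.X ^ n := by
  induction h using IsWeightedHomogeneous.induction_on with
  | zero => simp
  | add p q hp hq ihp ihq => rw [map_add, ihp, ihq, map_add, add_mul]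
  | monomial d r hr => rw [gradHom_monomial, hr]

lemma coeff_coeff_gradHom (P : MvPolynomial σ R) (m : ℕ) (d : σ →₀ ℕ) :
    coeff d ((gradHom w P).coeff m) = if Finsupp.weight w d = m then coeff d P else 0 := by
  classical
  induction P using MvPolynomial.induction_on' with
  | monomial e r =>
    rw [gradHom_monomial, Polynomial.coeff_C_mul, Polynomial.coeff_X_pow]
    by_cases hm : m = Finsupp.weight w e
    · subst hm
      simp only [if_true, mul_one, coeff_monomial]
      by_cases hde : e = d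
      · subst hde; simp
      · simp [hde]
    · simp only [hm, if_false, mul_zero, coeff_zero, coeff_monomial]
      by_cases hde : e = d
      · subst hde; simp [Ne.symm hm]
      · simp [hde]
  | add p q hp hq =>
    rw [map_add, Polynomial.coeff_add, coeff_add, hp, hq, coeff_add]
    split_ifs <;> simp

lemma isWeightedHomogeneous_of_gradHom {P : MvPolynomial σ R} {n : ℕ}
    (h : gradHom w P = Polynomial.C P * Polynomial.X ^ n) : IsWeightedHomogeneous w P n := by
  classical
  intro d hd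
  have h1 := coeff_coeff_gradHom w P (Finsupp.weight w d) d
  rw [h, Polynomial.coeff_C_mul, Polynomial.coeff_X_pow] at h1
  simp only [if_true] at h1
  by_contra hne
  rw [if_neg hne] at h1
  simp at h1
  exact hd h1.symm

lemma eval_one_gradHom (P : MvPolynomial σ R) : (gradHom w P).eval 1 = P := by
  have : ((Polynomial.evalRingHom (1 : MvPolynomial σ R)).comp
      (gradHom w : MvPolynomial σ R →ₐ[R] Polynomial (MvPolynomial σ R)).toRingHom)
      = RingHom.id _ := by
    apply MvPolynomial.ringHom_ext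
    · intro r
      simp [gradHom]
    · intro i
      simp [gradHom]
  exact congrArg (fun f => f P) this

/-- A factor of a nonzero weighted homogeneous polynomial over a domain is weighted
homogeneous. -/
theorem isWeightedHomogeneous_of_mul [IsDomain R] {U V : MvPolynomial σ R} {n : ℕ}
    (h : IsWeightedHomogeneous w (U * V) n) (h0 : U * V ≠ 0) :
    ∃ i j, i + j = n ∧ IsWeightedHomogeneous w U i ∧ IsWeightedHomogeneous w V j := by
  have hU0 : U ≠ 0 := left_ne_zero_of_mul h0
  have hV0 : V ≠ 0 := right_ne_zero_of_mul h0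
  have hgU : gradHom w U ≠ 0 := by
    intro h1
    apply hU0
    rw [← eval_one_gradHom w U, h1]; simp
  have hgV : gradHom w V ≠ 0 := by
    intro h1
    apply hV0
    rw [← eval_one_gradHom w V, h1]; simp
  have hprod : gradHom w U * gradHom w V = Polynomial.C (U * V) * Polynomial.X ^ n := by
    rw [← map_mul, gradHom_of_isWeightedHomogeneous w h]
  have hd : (gradHom w U).natDegree + (gradHom w V).natDegree = n := by
    rw [← Polynomial.natDegree_mul hgU hgV, hprod, Polynomial.natDegree_C_mul_X_pow _ _ h0]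
  have ht : (gradHom w U).natTrailingDegree + (gradHom w V).natTrailingDegree = n := by
    rw [← Polynomial.natTrailingDegree_mul hgU hgV, hprod]
    rw [Polynomial.natTrailingDegree_mul_X_pow (by simpa using h0),
      Polynomial.natTrailingDegree_C, zero_add]
  have hU1 := Polynomial.natTrailingDegree_le_natDegree (p := gradHom w U)
  have hV1 := Polynomial.natTrailingDegree_le_natDegree (p := gradHom w V)
  have hUe : (gradHom w U).natTrailingDegree = (gradHom w U).natDegree := by omega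
  have hVe : (gradHom w V).natTrailingDegree = (gradHom w V).natDegree := by omega
  have key : ∀ (W : MvPolynomial σ R),
      (gradHom w W).natTrailingDegree = (gradHom w W).natDegree →
      IsWeightedHomogeneous w W (gradHom w W).natDegree := by
    intro W hW
    apply isWeightedHomogeneous_of_gradHom
    have h1 : gradHom w W = Polynomial.C ((gradHom w W).coeff (gradHom w W).natDegree) *
        Polynomial.X ^ (gradHom w W).natDegree := by
      ext1 m
      rw [Polynomial.coeff_C_mul, Polynomial.coeff_X_pow]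
      by_cases hm : m = (gradHom w W).natDegree
      · rw [if_pos hm, mul_one, hm]
      · rw [if_neg hm, mul_zero]
        rcases lt_or_gt_of_ne hm with hlt | hgt
        · exact Polynomial.coeff_eq_zero_of_lt_natTrailingDegree (hW ▸ hlt)
        · exact Polynomial.coeff_eq_zero_of_natDegree_lt hgt
    have h2 : (gradHom w W).coeff (gradHom w W).natDegree = W := by
      have := eval_one_gradHom w W
      rw [h1] at this
      simpa using this
    rw [h2] at h1
    exact h1
  exact ⟨_, _, hd, key U hUe, key V hVe⟩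

end Factor

section Core

variable {κ : Type*} [Field κ]

/-- weights (4, 6) -/
def wt : Fin 2 → ℕ := ![4, 6]

@[simp] lemma wt_zero : wt 0 = 4 := rfl
@[simp] lemma wt_one : wt 1 = 6 := rfl

/-- The Ramanujan–Serre derivation `D = 12 ∂` on `κ[Q, R]`: `D Q = -4 R`, `D R = -6 Q ^ 2`. -/
noncomputable def dRam (P : MvPolynomial (Fin 2) κ) : MvPolynomial (Fin 2) κ :=
  -4 * X 1 * pderiv 0 P + -6 * X 0 ^ 2 * pderiv 1 P

lemma dRam_add (P Q : MvPolynomial (Fin 2) κ) : dRam (P + Q) = dRam P + dRam Q := by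
  simp only [dRam, map_add]; ring

lemma dRam_mul (P Q : MvPolynomial (Fin 2) κ) : dRam (P * Q) = P * dRam Q + Q * dRam P := by
  simp only [dRam, Derivation.leibniz, smul_eq_mul]; ring

lemma dRam_pow (P : MvPolynomial (Fin 2) κ) (n : ℕ) :
    dRam (P ^ (n + 1)) = (n + 1 : ℕ) * P ^ n * dRam P := by
  induction n with
  | zero => simp
  | succ n ih =>
    rw [pow_succ, dRam_mul, ih]
    push_cast
    ring

lemma isWH_mul_pderiv {σ : Type*} {w : σ → ℕ} {i : σ} {g : MvPolynomial σ κ} {c : ℕ}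
    (hg : IsWeightedHomogeneous w g (w i + c)) {P : MvPolynomial σ κ} {k : ℕ}
    (hP : IsWeightedHomogeneous w P k) : IsWeightedHomogeneous w (g * pderiv i P) (k + c) := by
  induction hP using IsWeightedHomogeneous.induction_on with
  | zero => simpa using isWeightedHomogeneous_zero κ w (k + c)
  | add p q hp hq ihp ihq => rw [map_add, mul_add]; exact ihp.add ihq
  | monomial d r hr =>
    rw [pderiv_monomial]
    by_cases hi : d i = 0
    · rw [hi]; simpa using isWeightedHomogeneous_zero κ w (k + c)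
    · have h1 : IsWeightedHomogeneous w (monomial (d - Finsupp.single i 1) (r * (d i : κ)))
          (Finsupp.weight w (d - Finsupp.single i 1)) :=
        isWeightedHomogeneous_monomial w _ _ rfl
      have h2 := hg.mul h1
      have h3 : w i + c + Finsupp.weight w (d - Finsupp.single i 1) = k + c := by
        have := Finsupp.weight_sub_single_add (w := w) hi
        omega
      rwa [h3] at h2

lemma isWH_dRam {P : MvPolynomial (Fin 2) κ} {k : ℕ} (hP : IsWeightedHomogeneous wt P k) :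
    IsWeightedHomogeneous wt (dRam P) (k + 2) := by
  unfold dRam
  apply IsWeightedHomogeneous.add
  · apply isWH_mul_pderiv _ hP
    have h1 : IsWeightedHomogeneous wt (X 1 : MvPolynomial (Fin 2) κ) 6 :=
      isWeightedHomogeneous_X κ wt 1
    have := h1.C_mul (-4)
    rwa [map_neg, map_ofNat] at this
  · apply isWH_mul_pderiv _ hP
    have h1 : IsWeightedHomogeneous wt (X 0 : MvPolynomial (Fin 2) κ) 4 :=
      isWeightedHomogeneous_X κ wt 0
    have := (h1.pow 2).C_mul (-6)
    rwa [map_neg, map_ofNat] at this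

open PowerSeries in
lemma chain_rule (d : Derivation κ κ⟦X⟧ κ⟦X⟧) (e : Fin 2 → κ⟦X⟧) (P : MvPolynomial (Fin 2) κ) :
    d (aeval e P) = aeval e (pderiv 0 P) * d (e 0) + aeval e (pderiv 1 P) * d (e 1) := by
  induction P using MvPolynomial.induction_on with
  | C a =>
    have h1 : d (PowerSeries.C a) = 0 := by
      rw [show PowerSeries.C a = algebraMap κ κ⟦X⟧ a from rfl, Derivation.map_algebraMap]
    simp [h1]
  | add p q hp hq => simp only [map_add, hp, hq]; ring
  | mul_X p i hp =>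
    simp only [map_mul, aeval_X, Derivation.leibniz, smul_eq_mul, hp, map_add]
    fin_cases i
    · simp [pderiv_X]; ring
    · simp [pderiv_X]; ring



open PowerSeries in
/-- Ramanujan data over `κ`: three power series with constant term `1` satisfying the Ramanujan
differential equations, such that `e4 ^ 3 - e6 ^ 2 ≠ 0`. -/
structure RamSys (κ : Type*) [Field κ] where
  e2 : κ⟦X⟧
  e4 : κ⟦X⟧
  e6 : κ⟦X⟧
  h2 : PowerSeries.constantCoeff e2 = 1
  h4 : PowerSeries.constantCoeff e4 = 1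
  h6 : PowerSeries.constantCoeff e6 = 1
  hδ : e4 ^ 3 - e6 ^ 2 ≠ 0
  R2 : 12 * (PowerSeries.X * PowerSeries.derivative κ e2) = e2 ^ 2 - e4
  R4 : 3 * (PowerSeries.X * PowerSeries.derivative κ e4) = e2 * e4 - e6
  R6 : 2 * (PowerSeries.X * PowerSeries.derivative κ e6) = e2 * e6 - e4 ^ 2

namespace RamSys

open PowerSeries

variable (S : RamSys κ)

/-- evaluation `Q ↦ e4`, `R ↦ e6` -/
noncomputable def ev : MvPolynomial (Fin 2) κ →ₐ[κ] κ⟦X⟧ := aeval ![S.e4, S.e6]

@[simp] lemma ev_X0 : S.ev (MvPolynomial.X 0) = S.e4 := by simp [ev]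
@[simp] lemma ev_X1 : S.ev (MvPolynomial.X 1) = S.e6 := by simp [ev]
@[simp] lemma ev_C (a : κ) : S.ev (MvPolynomial.C a) = PowerSeries.C a := by
  simp [ev]

lemma ev_dRam {P : MvPolynomial (Fin 2) κ} {k : ℕ} (hP : IsWeightedHomogeneous wt P k) :
    S.ev (dRam P) = 12 * (PowerSeries.X * PowerSeries.derivative κ (S.ev P))
      - (k : κ⟦X⟧) * S.e2 * S.ev P := by
  have hc := chain_rule (PowerSeries.derivative κ) ![S.e4, S.e6] P
  have hE := congrArg S.ev hP.sum_weight_X_mul_pderiv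
  simp only [Fin.sum_univ_two, wt_zero, wt_one, map_add, map_mul, ev_X0, ev_X1,
    nsmul_eq_mul, map_ofNat, map_natCast, Nat.cast_ofNat] at hE
  have hD : S.ev (dRam P) = -4 * S.e6 * S.ev (pderiv 0 P) + -6 * S.e4 ^ 2 * S.ev (pderiv 1 P) := by
    simp only [dRam, map_add, map_mul, map_neg, map_pow, ev_X0, ev_X1, map_ofNat]
  rw [hD]
  change (PowerSeries.derivative κ) (S.ev P) = S.ev (pderiv 0 P) * _ + S.ev (pderiv 1 P) * _ at hc
  simp only [Matrix.cons_val_zero, Matrix.cons_val_one] at hc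
  rw [hc]
  linear_combination (-4 * S.ev (pderiv 0 P)) * S.R4 + (-6 * S.ev (pderiv 1 P)) * S.R6
    + (-S.e2) * hE

lemma constantCoeff_ev (P : MvPolynomial (Fin 2) κ) :
    PowerSeries.constantCoeff (S.ev P) = MvPolynomial.eval (fun _ => (1 : κ)) P := by
  have : ((PowerSeries.constantCoeff (R := κ)).comp (S.ev : MvPolynomial (Fin 2) κ →+* κ⟦X⟧))
      = MvPolynomial.eval (fun _ => (1 : κ)) := by
    apply MvPolynomial.ringHom_ext
    · intro r; simp
    · intro i
      fin_cases i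
      · simp [S.h4]
      · simp [S.h6]
  exact congrArg (fun f => f P) this

end RamSys


/-- `Δ' = Q ^ 3 - R ^ 2` -/
noncomputable def dlt : MvPolynomial (Fin 2) κ := X 0 ^ 3 - X 1 ^ 2

lemma isWH_X0 : IsWeightedHomogeneous wt (X 0 : MvPolynomial (Fin 2) κ) 4 :=
  isWeightedHomogeneous_X κ wt 0

lemma isWH_X1 : IsWeightedHomogeneous wt (X 1 : MvPolynomial (Fin 2) κ) 6 :=
  isWeightedHomogeneous_X κ wt 1

lemma isWH_dlt : IsWeightedHomogeneous wt (dlt : MvPolynomial (Fin 2) κ) 12 :=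
  ((isWH_X0 (κ := κ)).pow 3).sub ((isWH_X1 (κ := κ)).pow 2)

/-- canonical monomial of weight `k` -/
noncomputable def canMon (k : ℕ) : MvPolynomial (Fin 2) κ :=
  X 0 ^ ((k - 6 * ((k / 2) % 2)) / 4) * X 1 ^ ((k / 2) % 2)

lemma weight_wt (d : Fin 2 →₀ ℕ) : Finsupp.weight wt d = 4 * d 0 + 6 * d 1 := by
  rw [Finsupp.weight_apply, Finsupp.sum_fintype _ _ (by simp)]
  simp [Fin.sum_univ_two, mul_comm]

lemma monomial_eq_X_pow (d : Fin 2 →₀ ℕ) (r : κ) :
    monomial d r = C r * (X 0 ^ d 0 * X 1 ^ d 1) := by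
  rw [monomial_eq, Finsupp.prod_fintype _ _ (by simp)]
  simp [Fin.prod_univ_two]

lemma dlt_dvd_canMon_sub (d : Fin 2 →₀ ℕ) :
    (dlt : MvPolynomial (Fin 2) κ) ∣ canMon (Finsupp.weight wt d) - monomial d (1 : κ) := by
  rw [weight_wt, monomial_eq_X_pow, C_1, one_mul]
  unfold canMon
  have h1 : ((4 * d 0 + 6 * d 1) / 2) % 2 = d 1 % 2 := by omega
  have h2 : (4 * d 0 + 6 * d 1 - 6 * (d 1 % 2)) / 4 = d 0 + 3 * (d 1 / 2) := by omega
  rw [h1, h2]
  have h3 : (X 1 : MvPolynomial (Fin 2) κ) ^ d 1 = (X 1 ^ 2) ^ (d 1 / 2) * X 1 ^ (d 1 % 2) := by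
    rw [← pow_mul, ← pow_add]
    congr 1
    omega
  have h4 : (X 0 : MvPolynomial (Fin 2) κ) ^ (d 0 + 3 * (d 1 / 2)) * X 1 ^ (d 1 % 2)
      - X 0 ^ d 0 * X 1 ^ d 1
      = X 0 ^ d 0 * X 1 ^ (d 1 % 2) * ((X 0 ^ 3) ^ (d 1 / 2) - (X 1 ^ 2) ^ (d 1 / 2)) := by
    rw [h3, pow_add, pow_mul]
    ring
  rw [h4]
  exact Dvd.dvd.mul_left (sub_dvd_pow_sub_pow _ _ _) _

lemma dlt_dvd_sub_canMon {P : MvPolynomial (Fin 2) κ} {k : ℕ}
    (hP : IsWeightedHomogeneous wt P k) :
    (dlt : MvPolynomial (Fin 2) κ) ∣ P - C (MvPolynomial.eval (fun _ => (1 : κ)) P) * canMon k := by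
  induction hP using IsWeightedHomogeneous.induction_on with
  | zero => simp
  | add p q hp hq ihp ihq =>
    have : p + q - C (MvPolynomial.eval (fun _ => (1 : κ)) (p + q)) * canMon k
        = (p - C (MvPolynomial.eval (fun _ => (1 : κ)) p) * canMon k)
          + (q - C (MvPolynomial.eval (fun _ => (1 : κ)) q) * canMon k) := by
      simp only [map_add]; ring
    rw [this]
    exact dvd_add ihp ihq
  | monomial d r hr =>
    have h1 : MvPolynomial.eval (fun _ => (1 : κ)) (monomial d r) = r := by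
      simp [eval_monomial]
    have h2 : monomial d r - C r * canMon k = -(C r * (canMon k - monomial d (1 : κ))) := by
      rw [mul_sub, C_mul_monomial, mul_one]
      ring
    rw [h1, h2, ← hr]
    exact (Dvd.dvd.mul_left (dlt_dvd_canMon_sub d) _).neg_right

namespace RamSys

variable (S : RamSys κ)

lemma ev_dlt : S.ev dlt = S.e4 ^ 3 - S.e6 ^ 2 := by
  simp [dlt]

/-- `ev` is injective on each isobaric piece. -/
theorem eq_zero_of_ev_eq_zero : ∀ (k : ℕ) (P : MvPolynomial (Fin 2) κ),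
    IsWeightedHomogeneous wt P k → S.ev P = 0 → P = 0 := by
  intro k
  induction k using Nat.strong_induction_on with
  | _ k ih =>
    intro P hP h
    have hc : MvPolynomial.eval (fun _ => (1 : κ)) P = 0 := by
      rw [← S.constantCoeff_ev, h]; simp
    have hdvd : (dlt : MvPolynomial (Fin 2) κ) ∣ P := by
      simpa [hc] using dlt_dvd_sub_canMon hP
    obtain ⟨P₁, rfl⟩ := hdvd
    by_contra hne
    obtain ⟨i, j, hij, hi, hj⟩ := isWeightedHomogeneous_of_mul wt hP hne
    have hdlt0 : (dlt : MvPolynomial (Fin 2) κ) ≠ 0 := left_ne_zero_of_mul hne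
    have hi12 : i = 12 := hi.inj_right hdlt0 isWH_dlt
    have hev : S.ev dlt * S.ev P₁ = 0 := by rw [← map_mul]; exact h
    rcases mul_eq_zero.mp hev with h1 | h1
    · exact S.hδ (S.ev_dlt ▸ h1)
    · have := ih j (by omega) P₁ hj h1
      rw [this, mul_zero] at hne
      exact hne rfl

theorem eq_of_ev_eq {k : ℕ} {P P' : MvPolynomial (Fin 2) κ}
    (hP : IsWeightedHomogeneous wt P k) (hP' : IsWeightedHomogeneous wt P' k)
    (h : S.ev P = S.ev P') : P = P' := by
  have := S.eq_zero_of_ev_eq_zero k (P - P') (hP.sub hP') (by rw [map_sub, h, sub_self])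
  exact sub_eq_zero.mp this

end RamSys


lemma eq_C_of_isWH_zero {P : MvPolynomial (Fin 2) κ} (h : IsWeightedHomogeneous wt P 0) :
    P = C (coeff 0 P) := by
  have := h.eq_monomial_of_unique_weight (d₀ := 0) (fun d hd => by
    rw [weight_wt] at hd
    ext i
    fin_cases i
    · simp only [Fin.zero_eta, Finsupp.coe_zero, Pi.zero_apply]; omega
    · simp only [Fin.mk_one, Finsupp.coe_zero, Pi.zero_apply]; omega)
  exact this

lemma eq_zero_of_isWH_two {P : MvPolynomial (Fin 2) κ} (h : IsWeightedHomogeneous wt P 2) :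
    P = 0 :=
  h.eq_zero_of_no_monomials (fun d => by rw [weight_wt]; omega)

lemma weight_pos_of_prime {π : MvPolynomial (Fin 2) κ} (hπ : Prime π) {w : ℕ}
    (hw : IsWeightedHomogeneous wt π w) : 0 < w := by
  rcases Nat.eq_zero_or_pos w with h0 | h0
  · exfalso
    subst h0
    have h1 := eq_C_of_isWH_zero hw
    have h2 : coeff 0 π ≠ 0 := by
      intro h3
      rw [h3, map_zero] at h1
      exact hπ.ne_zero h1
    apply hπ.not_isUnit
    rw [h1]
    exact (isUnit_iff_ne_zero.mpr h2).map C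
  · exact h0

namespace RamSys

variable (S : RamSys κ) (ℓ : ℕ) [hℓ : Fact ℓ.Prime] [CharP κ ℓ]

omit hℓ in
lemma cast_char_ps : ((ℓ : ℕ) : PowerSeries κ) = 0 := by
  rw [← map_natCast (PowerSeries.C (R := κ)), CharP.cast_eq_zero, map_zero]

variable {A : MvPolynomial (Fin 2) κ}

include hℓ in
lemma ev_dRam_A (hA : IsWeightedHomogeneous wt A (ℓ - 1)) (hA1 : S.ev A = 1) :
    S.ev (dRam A) = S.e2 := by
  rw [S.ev_dRam hA, hA1]
  have h1 : ((ℓ - 1 : ℕ) : PowerSeries κ) = -1 := by
    have h : 1 ≤ ℓ := hℓ.out.one_le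
    rw [Nat.cast_sub h, cast_char_ps, Nat.cast_one, zero_sub]
  rw [h1]
  simp

include hℓ in
lemma dRam_dRam_A (hA : IsWeightedHomogeneous wt A (ℓ - 1)) (hA1 : S.ev A = 1) :
    dRam (dRam A) = -(X 0 * A) := by
  have h : 1 ≤ ℓ := hℓ.out.one_le
  have hB : IsWeightedHomogeneous wt (dRam A) (ℓ - 1 + 2) := isWH_dRam hA
  have hDB : IsWeightedHomogeneous wt (dRam (dRam A)) (ℓ - 1 + 2 + 2) := isWH_dRam hB
  have hXA : IsWeightedHomogeneous wt (-(X 0 * A)) (4 + (ℓ - 1)) := (isWH_X0.mul hA).neg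
  have e1 : ℓ - 1 + 2 + 2 = 4 + (ℓ - 1) := by omega
  rw [e1] at hDB
  apply S.eq_of_ev_eq hDB hXA
  rw [S.ev_dRam hB, S.ev_dRam_A ℓ hA hA1, map_neg, map_mul, hA1, ev_X0, mul_one]
  have h1 : ((ℓ - 1 + 2 : ℕ) : PowerSeries κ) = 1 := by
    have e2 : ℓ - 1 + 2 = ℓ + 1 := by omega
    rw [e2, Nat.cast_add, cast_char_ps, Nat.cast_one, zero_add]
  rw [h1, S.R2]
  ring

omit hℓ in
lemma not_dvd_dRam {π : MvPolynomial (Fin 2) κ} (hπ : Prime π) (hA1 : S.ev A = 1)
    (hπA : π ∣ A) {w : ℕ} (hw : IsWeightedHomogeneous wt π w) (hwℓ : w < ℓ) :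
    ¬ π ∣ dRam π := by
  intro hdvd
  have hw0 : 0 < w := weight_pos_of_prime hπ hw
  have hD0 : dRam π = 0 := by
    by_contra hne
    obtain ⟨g, hg⟩ := hdvd
    have hDw : IsWeightedHomogeneous wt (π * g) (w + 2) := hg ▸ isWH_dRam hw
    obtain ⟨i, j, hij, hi, hj⟩ := isWeightedHomogeneous_of_mul wt hDw (hg ▸ hne)
    have hiw : i = w := hi.inj_right hπ.ne_zero hw
    have hj2 : j = 2 := by omega
    rw [hj2] at hj
    rw [hg, eq_zero_of_isWH_two hj, mul_zero] at hne
    exact hne rfl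
  have hev := S.ev_dRam hw
  rw [hD0, map_zero] at hev
  have hcc := congrArg (PowerSeries.constantCoeff (R := κ)) hev
  obtain ⟨q, hq⟩ := hπA
  have h1 : S.ev π * S.ev q = 1 := by rw [← map_mul, ← hq, hA1]
  have h2 := congrArg (PowerSeries.constantCoeff (R := κ)) h1
  simp only [map_mul, map_one] at h2
  have hc0 : PowerSeries.constantCoeff (S.ev π) ≠ 0 := left_ne_zero_of_mul_eq_one h2
  simp only [map_zero, map_sub, map_mul, PowerSeries.constantCoeff_X, zero_mul, mul_zero,
    map_natCast, S.h2, mul_one, zero_sub, zero_eq_neg] at hcc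
  rcases mul_eq_zero.mp hcc with h3 | h3
  · rw [CharP.cast_eq_zero_iff κ ℓ] at h3
    have := Nat.le_of_dvd hw0 h3
    omega
  · exact hc0 h3

include hℓ in
lemma not_sq_dvd (hA : IsWeightedHomogeneous wt A (ℓ - 1)) (hA1 : S.ev A = 1)
    {π : MvPolynomial (Fin 2) κ} (hπ : Prime π) : ¬ π ^ 2 ∣ A := by
  intro h2
  have hℓ1 : 1 ≤ ℓ := hℓ.out.one_le
  have hA0 : A ≠ 0 := by
    intro h; rw [h, map_zero] at hA1; exact zero_ne_one hA1
  have hfin : FiniteMultiplicity π A := FiniteMultiplicity.of_prime_left hπ hA0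
  obtain ⟨h, hAe, hndvd⟩ := hfin.exists_eq_pow_mul_and_not_dvd
  have he2 : 2 ≤ multiplicity π A := hfin.le_multiplicity_of_pow_dvd h2
  obtain ⟨n, hn⟩ := Nat.exists_eq_add_of_le he2
  rw [hn] at hAe
  have hn2 : 2 + n = n + 2 := by omega
  rw [hn2] at hAe
  -- weights
  have hAe' : IsWeightedHomogeneous wt (π ^ (n + 2) * h) (ℓ - 1) := hAe ▸ hA
  obtain ⟨i, j, hij, hi, hj⟩ := isWeightedHomogeneous_of_mul wt hAe' (hAe ▸ hA0)
  have hπpow : π ^ (n + 2) ≠ 0 := pow_ne_zero _ hπ.ne_zero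
  have hi' : IsWeightedHomogeneous wt (π * π ^ (n + 1)) i := by
    rw [← pow_succ']; exact hi
  obtain ⟨w, w', hww, hw, -⟩ := isWeightedHomogeneous_of_mul wt hi'
    (by rw [← pow_succ']; exact hπpow)
  have hw0 : 0 < w := weight_pos_of_prime hπ hw
  have hiw : i = (n + 2) * w := by
    have := hw.pow (n + 2)
    rw [smul_eq_mul] at this
    exact hi.inj_right hπpow this
  have hle : (n + 2) * 1 ≤ (n + 2) * w := Nat.mul_le_mul_left _ hw0
  have hle' : 1 * w ≤ (n + 2) * w := Nat.mul_le_mul_right _ (by omega)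
  have hnℓ : n + 2 < ℓ := by omega
  have hwℓ : w < ℓ := by omega
  have hπA : π ∣ A := (dvd_pow_self π (by omega : (2 : ℕ) ≠ 0)).trans h2
  have hndD := S.not_dvd_dRam ℓ hπ hA1 hπA hw hwℓ
  have hc1 : ((n + 1 : ℕ) : κ) ≠ 0 := by
    intro h3
    rw [CharP.cast_eq_zero_iff κ ℓ] at h3
    have := Nat.le_of_dvd (by omega) h3
    omega
  have hc2 : ((n + 2 : ℕ) : κ) ≠ 0 := by
    intro h3
    rw [CharP.cast_eq_zero_iff κ ℓ] at h3
    have := Nat.le_of_dvd (by omega) h3
    omega
  have hu1 : IsUnit (C ((n + 1 : ℕ) : κ) : MvPolynomial (Fin 2) κ) :=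
    (isUnit_iff_ne_zero.mpr hc1).map C
  have hu2 : IsUnit (C ((n + 2 : ℕ) : κ) : MvPolynomial (Fin 2) κ) :=
    (isUnit_iff_ne_zero.mpr hc2).map C
  -- derivative computations
  set B₁ : MvPolynomial (Fin 2) κ := π * dRam h + C ((n + 2 : ℕ) : κ) * (h * dRam π) with hB₁
  have hDA : dRam A = π ^ (n + 1) * B₁ := by
    rw [hAe, dRam_mul, dRam_pow, hB₁]
    simp only [map_natCast]
    ring
  have hDDA : dRam (dRam A) = π ^ n * (π * dRam B₁ + C ((n + 1 : ℕ) : κ) * (B₁ * dRam π)) := by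
    rw [hDA, dRam_mul, dRam_pow]
    simp only [map_natCast]
    ring
  have hkey : π ^ n * (π * dRam B₁ + C ((n + 1 : ℕ) : κ) * (B₁ * dRam π) + X 0 * π ^ 2 * h) = 0 := by
    have := S.dRam_dRam_A ℓ hA hA1
    rw [hDDA] at this
    have h3 : π ^ n * (X 0 * π ^ 2 * h) = X 0 * A := by rw [hAe]; ring
    rw [mul_add, this, h3]
    ring
  have hkey' : π * dRam B₁ + C ((n + 1 : ℕ) : κ) * (B₁ * dRam π) + X 0 * π ^ 2 * h = 0 :=
    (mul_eq_zero.mp hkey).resolve_left (pow_ne_zero _ hπ.ne_zero)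
  have hd1 : π ∣ C ((n + 1 : ℕ) : κ) * (B₁ * dRam π) := by
    have : C ((n + 1 : ℕ) : κ) * (B₁ * dRam π) = π * (-(dRam B₁) - X 0 * π * h) := by
      linear_combination hkey'
    exact Dvd.intro _ this.symm
  have hd2 : π ∣ B₁ * dRam π := (hu1.dvd_mul_left).mp hd1
  rcases hπ.dvd_or_dvd hd2 with h3 | h3
  · have hd3 : π ∣ C ((n + 2 : ℕ) : κ) * (h * dRam π) := by
      have := (dvd_add_right (dvd_mul_right π (dRam h))).mp h3
      exact this
    have hd4 : π ∣ h * dRam π := (hu2.dvd_mul_left).mp hd3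
    rcases hπ.dvd_or_dvd hd4 with h4 | h4
    · exact hndvd h4
    · exact hndD h4
  · exact hndD h3

end RamSys


namespace RamSys

variable (S : RamSys κ) (ℓ : ℕ) [hℓ : Fact ℓ.Prime] [CharP κ ℓ]

include hℓ in
theorem sub_one_dvd_weight {A : MvPolynomial (Fin 2) κ}
    (hA : IsWeightedHomogeneous wt A (ℓ - 1)) (hA1 : S.ev A = 1)
    {k : ℕ} {F : MvPolynomial (Fin 2) κ} (hF : IsWeightedHomogeneous wt F k)
    {c : κ} (hc : c ≠ 0) (hFc : S.ev F = PowerSeries.C c) : (ℓ - 1) ∣ k := by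
  have hℓ2 : 2 ≤ ℓ := hℓ.out.two_le
  have hA0 : A ≠ 0 := by
    intro h; rw [h, map_zero] at hA1; exact zero_ne_one hA1
  have hF0 : F ≠ 0 := by
    intro h
    rw [h, map_zero] at hFc
    have := congrArg (PowerSeries.constantCoeff (R := κ)) hFc
    simp at this
    exact hc this.symm
  -- the key identity
  have hpow : F ^ (ℓ - 1) = C (c ^ (ℓ - 1)) * A ^ k := by
    have h1 : IsWeightedHomogeneous wt (F ^ (ℓ - 1)) ((ℓ - 1) * k) := by
      have := hF.pow (ℓ - 1)
      rwa [smul_eq_mul] at this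
    have h2 : IsWeightedHomogeneous wt (C (c ^ (ℓ - 1)) * A ^ k) ((ℓ - 1) * k) := by
      have := (hA.pow k).C_mul (c ^ (ℓ - 1))
      rwa [smul_eq_mul, mul_comm k (ℓ - 1)] at this
    apply S.eq_of_ev_eq h1 h2
    simp only [map_pow, map_mul, hFc, hA1, one_pow, mul_one, ev_C]
  -- `A` is not a unit
  have hAu : ¬ IsUnit A := by
    intro hu
    obtain ⟨A', hA'⟩ := hu.exists_right_inv
    have h1 : IsWeightedHomogeneous wt (A * A') 0 := by
      rw [hA']; exact isWeightedHomogeneous_one κ wt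
    obtain ⟨i, j, hij, hi, -⟩ := isWeightedHomogeneous_of_mul wt h1 (by rw [hA']; exact one_ne_zero)
    have : i = ℓ - 1 := hi.inj_right hA0 hA
    omega
  obtain ⟨π, hπirr, hπA⟩ := WfDvdMonoid.exists_irreducible_factor hAu hA0
  have hπ : Prime π := UniqueFactorizationMonoid.irreducible_iff_prime.mp hπirr
  have hvA : emultiplicity π A = 1 := by
    have := emultiplicity_eq_of_dvd_of_not_dvd (a := π) (b := A) (k := 1)
      (by simpa using hπA) (S.not_sq_dvd ℓ hA hA1 hπ)
    simpa using this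
  have hfinF : FiniteMultiplicity π F := FiniteMultiplicity.of_prime_left hπ hF0
  have hvF := hfinF.emultiplicity_eq_multiplicity
  have hcu : IsUnit (C (c ^ (ℓ - 1)) : MvPolynomial (Fin 2) κ) :=
    (isUnit_iff_ne_zero.mpr (pow_ne_zero _ hc)).map C
  have h3 := congrArg (emultiplicity π) hpow
  rw [emultiplicity_pow hπ, emultiplicity_mul hπ, emultiplicity_pow hπ, hvA, hvF,
    emultiplicity_of_isUnit_right hπ.not_isUnit hcu, zero_add, mul_one] at h3
  have h4 : (ℓ - 1) * multiplicity π F = k := by exact_mod_cast h3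
  exact Dvd.intro _ h4

end RamSys

end Core

/-- **Algebraic core of the Swinnerton-Dyer theorem on constants mod `ℓ`.**
Let `κ` be a field of characteristic `ℓ ≥ 5` and let `e2, e4, e6 ∈ κ⟦X⟧` have constant term `1`
and satisfy Ramanujan's differential equations, with `e4 ^ 3 - e6 ^ 2 ≠ 0`.
If `A` is isobaric of weight `ℓ - 1` with `A(e4, e6) = 1` and `F` is isobaric of weight `k`
with `F(e4, e6)` a nonzero constant, then `ℓ - 1 ∣ k`. -/
theorem alg_core {κ : Type*} [Field κ] (ℓ : ℕ) [Fact ℓ.Prime] [CharP κ ℓ] (_h5 : 5 ≤ ℓ)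
    (e2 e4 e6 : PowerSeries κ)
    (h2 : PowerSeries.constantCoeff e2 = 1) (h4 : PowerSeries.constantCoeff e4 = 1)
    (h6 : PowerSeries.constantCoeff e6 = 1)
    (hδ : e4 ^ 3 - e6 ^ 2 ≠ 0)
    (R2 : 12 * (PowerSeries.X * PowerSeries.derivative κ e2) = e2 ^ 2 - e4)
    (R4 : 3 * (PowerSeries.X * PowerSeries.derivative κ e4) = e2 * e4 - e6)
    (R6 : 2 * (PowerSeries.X * PowerSeries.derivative κ e6) = e2 * e6 - e4 ^ 2)
    (A : MvPolynomial (Fin 2) κ) (hA : IsWeightedHomogeneous wt A (ℓ - 1))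
    (hA1 : aeval ![e4, e6] A = 1)
    {k : ℕ} (F : MvPolynomial (Fin 2) κ) (hF : IsWeightedHomogeneous wt F k)
    (c : κ) (hc : c ≠ 0) (hFc : aeval ![e4, e6] F = PowerSeries.C c) : (ℓ - 1) ∣ k :=
  RamSys.sub_one_dvd_weight ⟨e2, e4, e6, h2, h4, h6, hδ, R2, R4, R6⟩ ℓ hA hA1 hF hc hFc


end Fermat.Agent.S16SwD
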