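/-
Swinnerton-Dyer at level one (piece "SwD" for S16): the integer `q`-series of `E₂`, `E₄`, `E₆`, `Δ`
and the operator `θ = q d/dq` on formal power series.
-/
import Mathlib
import Fermat.Prelude.Def_ModularCurve_X0

set_option autoImplicit false

namespace Fermat.Agent.SwD

open PowerSeries

/-- `θ = q d/dq` on power series, defined coefficientwise. -/
noncomputable def thetaOp {A : Type*} [Semiring A] (f : PowerSeries A) : PowerSeries A :=
  PowerSeries.mk fun n => (n : A) * PowerSeries.coeff n f

@[simp] lemma coeff_thetaOp {A : Type*} [Semiring A] (f : PowerSeries A) (n : ℕ) :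
    PowerSeries.coeff n (thetaOp f) = (n : A) * PowerSeries.coeff n f := by
  simp [thetaOp]

lemma thetaOp_eq_X_mul_derivative {A : Type*} [CommRing A] (f : PowerSeries A) :
    thetaOp f = PowerSeries.X * PowerSeries.derivative A f := by
  ext n
  rcases n with _ | n
  · simp
  · rw [coeff_thetaOp, PowerSeries.coeff_succ_X_mul, PowerSeries.coeff_derivative]
    push_cast
    ring

lemma map_thetaOp {A B : Type*} [Semiring A] [Semiring B] (φ : A →+* B) (f : PowerSeries A) :
    PowerSeries.map φ (thetaOp f) = thetaOp (PowerSeries.map φ f) := by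
  ext n
  simp

/-- The integer `q`-series of `E₂`. -/
noncomputable def e2Z : PowerSeries ℤ :=
  PowerSeries.mk fun n => if n = 0 then 1 else -24 * ∑ d ∈ n.divisors, (d : ℤ)

/-- The integer `q`-series of `E₄` (the Prelude's `eisenstein4`). -/
noncomputable def e4Z : PowerSeries ℤ := ModularCurve.eisenstein4

/-- The integer `q`-series of `E₆`. -/
noncomputable def e6Z : PowerSeries ℤ :=
  PowerSeries.mk fun n => if n = 0 then 1 else -504 * ∑ d ∈ n.divisors, (d : ℤ) ^ 5

/-- The integer `q`-series of `Δ`. -/
noncomputable def deltaZ : PowerSeries ℤ := PowerSeries.X * ModularCurve.dedekindEtaUnit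

@[simp] lemma constantCoeff_e2Z : PowerSeries.constantCoeff e2Z = 1 := by
  rw [← PowerSeries.coeff_zero_eq_constantCoeff]; simp [e2Z]

@[simp] lemma constantCoeff_e4Z : PowerSeries.constantCoeff e4Z = 1 :=
  ModularCurve.constantCoeff_eisenstein4

@[simp] lemma constantCoeff_e6Z : PowerSeries.constantCoeff e6Z = 1 := by
  rw [← PowerSeries.coeff_zero_eq_constantCoeff]; simp [e6Z]

end Fermat.Agent.SwD
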