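/-
Swinnerton-Dyer at level one (piece "SwD" for S16): bridges between analytic `q`-expansions and
the integer `q`-series of `Series.lean`, and the `q`-expansion of `D F = (2πi)⁻¹ F'`.
-/
import Fermat.Agent.S16.SwD.Series
import Fermat.Agent.S28.QExp
import Fermat.Agent.S20.Ramanujan

set_option autoImplicit false

namespace Fermat.Agent.SwD

open UpperHalfPlane ModularForm EisensteinSeries Filter
open scoped MatrixGroups ModularForm Manifold Derivative Topology
open Fermat.Agent.S28.QExp (taylor0 coeff_taylor0 qFun qa_of_eq taylor0_mul taylor0_id)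

theorem qExpansion_E₄_eq : qExpansion 1 E₄ = PowerSeries.map (Int.castRingHom ℂ) e4Z :=
  Fermat.Agent.S28.QExp.qExpansion_E4

theorem qExpansion_E₆_eq : qExpansion 1 E₆ = PowerSeries.map (Int.castRingHom ℂ) e6Z := by
  ext n
  rw [E_qExpansion_coeff _ ⟨3, rfl⟩, PowerSeries.coeff_map, e6Z, PowerSeries.coeff_mk]
  by_cases h : n = 0
  · simp [h]
  · simp only [h, if_false]
    rw [ArithmeticFunction.sigma_apply]
    norm_num [show bernoulli 6 = 1 / 42 by decide +kernel]

theorem qExpansion_discriminant_eq :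
    qExpansion 1 ModularForm.discriminant = PowerSeries.map (Int.castRingHom ℂ) deltaZ := by
  rw [Fermat.Agent.S28.QExp.qExpansion_discriminant, deltaZ, map_mul, PowerSeries.map_X]

lemma analyticAt_cuspFunction_E2 : AnalyticAt ℂ (cuspFunction 1 E2) 0 :=
  analyticAt_cuspFunction_zero one_pos Fermat.Agent.S20.ramanujanAux_periodic_E2
    E2_mdifferentiable isBoundedAtImInfty_E2

theorem qExpansion_E2_eq :
    UpperHalfPlane.qExpansion 1 E2 = PowerSeries.map (Int.castRingHom ℂ) e2Z := by
  have hsum : ∀ τ : ℍ, HasSum (fun m : ℕ =>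
      (if m = 0 then 1 else -24 * (ArithmeticFunction.sigma 1 m : ℂ)) •
        Function.Periodic.qParam 1 τ ^ m) (E2 τ) := fun τ => by
    simpa only [Function.Periodic.qParam, Complex.ofReal_one, div_one] using
      hasSum_qExpansion_E2 (z := τ)
  have hps := hasFPowerSeriesOnBall_cuspFunction (h := 1) (f := E2)
    (c := fun m : ℕ => (if m = 0 then 1 else -24 * (ArithmeticFunction.sigma 1 m : ℂ)))
    one_pos analyticAt_cuspFunction_E2 hsum
  have h1 := Fermat.Agent.S28.QExp.taylor0_eq_of_hasFPowerSeriesAt hps.hasFPowerSeriesAt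
  rw [Fermat.Agent.S28.QExp.qExpansion_eq_taylor0, h1]
  ext n
  rw [PowerSeries.coeff_mk, PowerSeries.coeff_map, e2Z, PowerSeries.coeff_mk]
  by_cases h0 : n = 0
  · simp only [h0, if_true]
    simp
  · simp only [h0, if_false]
    rw [ArithmeticFunction.sigma_apply]
    push_cast
    simp

lemma taylor0_deriv (g : ℂ → ℂ) :
    taylor0 (deriv g) = PowerSeries.derivative ℂ (taylor0 g) := by
  ext n
  rw [coeff_taylor0, PowerSeries.coeff_derivative, coeff_taylor0, ← iteratedDeriv_succ',
    Nat.factorial_succ]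
  have hn : ((n : ℂ) + 1) ≠ 0 := by exact_mod_cast Nat.succ_ne_zero n
  have hf : ((n.factorial : ℕ) : ℂ) ≠ 0 := by exact_mod_cast Nat.factorial_ne_zero n
  push_cast
  field_simp

/-- The `q`-expansion of `D F = (2πi)⁻¹ F'` is `θ = q d/dq` of the `q`-expansion of `F`. -/
theorem qExpansion_D_eq {F : ℍ → ℂ} (hper : Function.Periodic (F ∘ ofComplex) 1)
    (hhol : MDiff F) (hbdd : IsBoundedAtImInfty F) :
    UpperHalfPlane.qExpansion 1 (D F) = thetaOp (UpperHalfPlane.qExpansion 1 F) := by
  have han : AnalyticAt ℂ (cuspFunction 1 F) 0 :=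
    analyticAt_cuspFunction_zero one_pos hper hhol hbdd
  have h1 := (qa_of_eq (f := D F) (c := (fun q : ℂ => q) * deriv (cuspFunction 1 F)) one_pos
    (analyticAt_id.mul han.deriv) (fun τ _ => by
      simpa [qFun] using Fermat.Agent.S20.ramanujanAux_D_eq hper hhol hbdd τ)).2
  rw [h1, taylor0_mul (c := fun q : ℂ => q) analyticAt_id han.deriv, taylor0_id, taylor0_deriv,
    thetaOp_eq_X_mul_derivative]
  rfl

/-- `D F` is analytic at the cusp. -/
theorem analyticAt_cuspFunction_D {F : ℍ → ℂ} (hper : Function.Periodic (F ∘ ofComplex) 1)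
    (hhol : MDiff F) (hbdd : IsBoundedAtImInfty F) :
    AnalyticAt ℂ (cuspFunction 1 (D F)) 0 := by
  have han : AnalyticAt ℂ (cuspFunction 1 F) 0 :=
    analyticAt_cuspFunction_zero one_pos hper hhol hbdd
  exact (qa_of_eq (f := D F) (c := (fun q : ℂ => q) * deriv (cuspFunction 1 F)) one_pos
    (analyticAt_id.mul han.deriv) (fun τ _ => by
      simpa [qFun] using Fermat.Agent.S20.ramanujanAux_D_eq hper hhol hbdd τ)).1

end Fermat.Agent.SwD
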