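/-
Swinnerton-Dyer at level one (piece "SwD" for S16): Ramanujan's identities and
`E₄³ - E₆² = 1728 Δ` as identities of integer power series.
The identity for `E₂` is taken as a hypothesis `RamanujanE2` here (proved in `RamanujanE2.lean`).
-/
import Fermat.Agent.S16.SwD.QExp

set_option autoImplicit false

namespace Fermat.Agent.SwD

open UpperHalfPlane ModularForm EisensteinSeries Filter
open scoped MatrixGroups ModularForm Manifold Derivative Topology
open Fermat.Agent.S23 (QA)

/-- Ramanujan's identity for `E₂`, as functions on the upper half plane. -/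
def RamanujanE2 : Prop := D E2 = (12 : ℂ)⁻¹ • (E2 * E2 - ⇑E₄)

lemma qa_E2 : QA E2 := analyticAt_cuspFunction_E2

lemma qa_modularForm {k : ℤ} (F : ModularForm 𝒮ℒ k) : QA (F : ℍ → ℂ) :=
  ModularFormClass.analyticAt_cuspFunction_zero F one_pos
    Fermat.Agent.S23.one_mem_strictPeriods_SL

local notation "ιZ" => PowerSeries.map (Int.castRingHom ℂ)

lemma ιZ_injective : Function.Injective ιZ :=
  PowerSeries.map_injective _ Int.cast_injective

theorem ram4_complex : thetaOp (ιZ e4Z) = (3 : ℂ)⁻¹ • (ιZ e2Z * ιZ e4Z - ιZ e6Z) := by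
  have h := congrArg (UpperHalfPlane.qExpansion 1) Fermat.Agent.S20.ramanujan_E₄
  rw [qExpansion_D_eq (Fermat.Agent.S20.ramanujanAux_periodic_MF E₄) E₄.holo'
      (Fermat.Agent.S20.ramanujanAux_bdd_MF E₄),
    QA.qExpansion_smul _ ((qa_E2.mul (qa_modularForm E₄)).sub (qa_modularForm E₆)),
    sub_eq_add_neg, QA.qExpansion_add (qa_E2.mul (qa_modularForm E₄)) (qa_modularForm E₆).neg,
    QA.qExpansion_neg (qa_modularForm E₆), QA.qExpansion_mul qa_E2 (qa_modularForm E₄),
    qExpansion_E₄_eq, qExpansion_E₆_eq, qExpansion_E2_eq, ← sub_eq_add_neg] at h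
  exact h

theorem ram6_complex : thetaOp (ιZ e6Z) = (2 : ℂ)⁻¹ • (ιZ e2Z * ιZ e6Z - ιZ e4Z * ιZ e4Z) := by
  have h := congrArg (UpperHalfPlane.qExpansion 1) Fermat.Agent.S20.ramanujan_E₆
  rw [qExpansion_D_eq (Fermat.Agent.S20.ramanujanAux_periodic_MF E₆) E₆.holo'
      (Fermat.Agent.S20.ramanujanAux_bdd_MF E₆),
    QA.qExpansion_smul _ ((qa_E2.mul (qa_modularForm E₆)).sub
      ((qa_modularForm E₄).mul (qa_modularForm E₄))),
    sub_eq_add_neg, QA.qExpansion_add (qa_E2.mul (qa_modularForm E₆))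
      ((qa_modularForm E₄).mul (qa_modularForm E₄)).neg,
    QA.qExpansion_neg ((qa_modularForm E₄).mul (qa_modularForm E₄)),
    QA.qExpansion_mul qa_E2 (qa_modularForm E₆),
    QA.qExpansion_mul (qa_modularForm E₄) (qa_modularForm E₄),
    qExpansion_E₄_eq, qExpansion_E₆_eq, qExpansion_E2_eq, ← sub_eq_add_neg] at h
  exact h

theorem ram2_complex (hR : RamanujanE2) :
    thetaOp (ιZ e2Z) = (12 : ℂ)⁻¹ • (ιZ e2Z * ιZ e2Z - ιZ e4Z) := by
  have h := congrArg (UpperHalfPlane.qExpansion 1) hR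
  rw [qExpansion_D_eq Fermat.Agent.S20.ramanujanAux_periodic_E2 E2_mdifferentiable
      isBoundedAtImInfty_E2,
    QA.qExpansion_smul _ ((qa_E2.mul qa_E2).sub (qa_modularForm E₄)),
    sub_eq_add_neg, QA.qExpansion_add (qa_E2.mul qa_E2) (qa_modularForm E₄).neg,
    QA.qExpansion_neg (qa_modularForm E₄), QA.qExpansion_mul qa_E2 qa_E2,
    qExpansion_E₄_eq, qExpansion_E2_eq, ← sub_eq_add_neg] at h
  exact h

lemma mul_of_eq_inv_smul (c : ℂ) (hc : c ≠ 0) {a b : PowerSeries ℂ} (h : a = c⁻¹ • b) :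
    PowerSeries.C c * a = b := by
  rw [h]
  ext n
  rw [PowerSeries.coeff_C_mul, PowerSeries.coeff_smul, smul_eq_mul]
  field_simp

theorem delta_complex : (1728 : PowerSeries ℂ) * ιZ deltaZ = ιZ e4Z ^ 3 - ιZ e6Z ^ 2 := by
  have hfun : (ModularForm.discriminant : ℍ → ℂ) =
      (1728 : ℂ)⁻¹ • ((E₄ : ℍ → ℂ) ^ 3 - (E₆ : ℍ → ℂ) ^ 2) := by
    funext z
    simp only [Pi.smul_apply, Pi.sub_apply, Pi.pow_apply, smul_eq_mul]
    rw [discriminant_eq_E₄_cube_sub_E₆_sq z]
    ring
  have h := congrArg (UpperHalfPlane.qExpansion 1) hfun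
  rw [QA.qExpansion_smul _ (((qa_modularForm E₄).pow 3).sub ((qa_modularForm E₆).pow 2)),
    sub_eq_add_neg, QA.qExpansion_add ((qa_modularForm E₄).pow 3) ((qa_modularForm E₆).pow 2).neg,
    QA.qExpansion_neg ((qa_modularForm E₆).pow 2), QA.qExpansion_pow (qa_modularForm E₄),
    QA.qExpansion_pow (qa_modularForm E₆),
    qExpansion_E₄_eq, qExpansion_E₆_eq, qExpansion_discriminant_eq, ← sub_eq_add_neg] at h
  have h2 := mul_of_eq_inv_smul 1728 (by norm_num) h
  rwa [map_ofNat] at h2

/-! ### The identities over `ℤ` -/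

theorem ram4_int : 3 * thetaOp e4Z = e2Z * e4Z - e6Z := by
  apply ιZ_injective
  rw [map_mul, map_thetaOp, map_sub, map_mul, map_ofNat]
  have h2 := mul_of_eq_inv_smul 3 (by norm_num) ram4_complex
  rwa [map_ofNat] at h2

theorem ram6_int : 2 * thetaOp e6Z = e2Z * e6Z - e4Z ^ 2 := by
  apply ιZ_injective
  rw [map_mul, map_thetaOp, map_sub, map_mul, map_pow, map_ofNat, pow_two]
  have h2 := mul_of_eq_inv_smul 2 (by norm_num) ram6_complex
  rwa [map_ofNat] at h2

theorem ram2_int (hR : RamanujanE2) : 12 * thetaOp e2Z = e2Z ^ 2 - e4Z := by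
  apply ιZ_injective
  rw [map_mul, map_thetaOp, map_sub, map_pow, map_ofNat, pow_two]
  have h2 := mul_of_eq_inv_smul 12 (by norm_num) (ram2_complex hR)
  rwa [map_ofNat] at h2

theorem delta_int : 1728 * deltaZ = e4Z ^ 3 - e6Z ^ 2 := by
  apply ιZ_injective
  rw [map_mul, map_sub, map_pow, map_pow, map_ofNat]
  exact delta_complex

/-! ### The identities over any commutative ring -/

section general

variable {A : Type*} [CommRing A]

theorem ram4_map : 3 * thetaOp (PowerSeries.map (Int.castRingHom A) e4Z) =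
    PowerSeries.map (Int.castRingHom A) e2Z * PowerSeries.map (Int.castRingHom A) e4Z -
      PowerSeries.map (Int.castRingHom A) e6Z := by
  have h := congrArg (PowerSeries.map (Int.castRingHom A)) ram4_int
  rwa [map_mul, map_thetaOp, map_sub, map_mul, map_ofNat] at h

theorem ram6_map : 2 * thetaOp (PowerSeries.map (Int.castRingHom A) e6Z) =
    PowerSeries.map (Int.castRingHom A) e2Z * PowerSeries.map (Int.castRingHom A) e6Z -
      PowerSeries.map (Int.castRingHom A) e4Z ^ 2 := by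
  have h := congrArg (PowerSeries.map (Int.castRingHom A)) ram6_int
  rwa [map_mul, map_thetaOp, map_sub, map_mul, map_pow, map_ofNat] at h

theorem ram2_map (hR : RamanujanE2) : 12 * thetaOp (PowerSeries.map (Int.castRingHom A) e2Z) =
    PowerSeries.map (Int.castRingHom A) e2Z ^ 2 - PowerSeries.map (Int.castRingHom A) e4Z := by
  have h := congrArg (PowerSeries.map (Int.castRingHom A)) (ram2_int hR)
  rwa [map_mul, map_thetaOp, map_sub, map_pow, map_ofNat] at h

theorem delta_map : 1728 * PowerSeries.map (Int.castRingHom A) deltaZ =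
    PowerSeries.map (Int.castRingHom A) e4Z ^ 3 - PowerSeries.map (Int.castRingHom A) e6Z ^ 2 := by
  have h := congrArg (PowerSeries.map (Int.castRingHom A)) delta_int
  rwa [map_mul, map_sub, map_pow, map_pow, map_ofNat] at h

end general

end Fermat.Agent.SwD
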