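/-
Swinnerton-Dyer at level one (piece "SwD" for S16): the integral Miller basis argument.
A level one form whose `q`-expansion has coefficients in a ring `O` (mapping to `ℂ` injectively and
to a field `κ` in which `1728 ≠ 0`) is, modulo the kernel of `O → κ`, an isobaric polynomial in
`E₄`, `E₆` with coefficients in `κ`.
-/
import Fermat.Agent.S16.SwD.RamZ
import Fermat.Agent.S16.SwD.Alg
import Fermat.Agent.S23.LevelOne

set_option autoImplicit false

namespace Fermat.Agent.SwD

open UpperHalfPlane ModularForm ModularFormClass MatrixGroups EisensteinSeries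
open Fermat.Agent.S16SwD (wt dlt isWH_X0 isWH_X1 isWH_dlt)
open Fermat.Agent.S23 (monoForm qExpansion_monoForm qExpansion_monoForm_coeff_zero
  exists_monoForm_of_even)

/-- Reduction of an integer power series to a commutative ring `A`. -/
noncomputable abbrev zmap (A : Type*) [CommRing A] : PowerSeries ℤ →+* PowerSeries A :=
  PowerSeries.map (Int.castRingHom A)

lemma map_zmap {A B : Type*} [CommRing A] [CommRing B] (f : A →+* B) (x : PowerSeries ℤ) :
    PowerSeries.map f (zmap A x) = zmap B x := by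
  ext n
  simp [zmap]

lemma constantCoeff_zmap (A : Type*) [CommRing A] (x : PowerSeries ℤ) :
    PowerSeries.constantCoeff (zmap A x) = ((PowerSeries.constantCoeff x : ℤ) : A) := by
  rw [← PowerSeries.coeff_zero_eq_constantCoeff_apply, PowerSeries.coeff_map,
    PowerSeries.coeff_zero_eq_constantCoeff_apply]
  rfl

/-- Evaluation `κ[Q,R] → κ⟦X⟧`, `Q ↦ E₄`, `R ↦ E₆` (reduced integer `q`-series). -/
noncomputable def evK (κ : Type*) [Field κ] : MvPolynomial (Fin 2) κ →ₐ[κ] PowerSeries κ :=
  MvPolynomial.aeval ![zmap κ e4Z, zmap κ e6Z]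

@[simp] lemma evK_X0 (κ : Type*) [Field κ] : evK κ (MvPolynomial.X 0) = zmap κ e4Z := by
  simp [evK]

@[simp] lemma evK_X1 (κ : Type*) [Field κ] : evK κ (MvPolynomial.X 1) = zmap κ e6Z := by
  simp [evK]

lemma evK_C (κ : Type*) [Field κ] (c : κ) : evK κ (MvPolynomial.C c) = PowerSeries.C c := by
  simp [evK]

lemma evK_dlt {κ : Type*} [Field κ] : evK κ dlt = 1728 * zmap κ deltaZ := by
  rw [delta_map]
  simp [dlt]

section

variable {κ : Type*} [Field κ] {O : Type*} [CommRing O]

lemma qExpansion_zero_form (k : ℤ) :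
    qExpansion 1 ((0 : ModularForm 𝒮ℒ k) : ℍ → ℂ) = 0 := by
  rw [FunLike.coe_zero]
  exact qExpansion_zero 1

lemma series_eq_zero_of_form_eq_zero (ι : O →+* ℂ) (hι : Function.Injective ι) {k : ℤ}
    (f : ModularForm 𝒮ℒ k) (hf : f = 0) (a : PowerSeries O)
    (ha : PowerSeries.map ι a = qExpansion 1 f) : a = 0 := by
  subst hf
  apply PowerSeries.map_injective ι hι
  rw [ha, map_zero, qExpansion_zero_form]

/-- The statement proved by induction on the weight. -/
def MillerAt (κ : Type*) [Field κ] {O : Type*} [CommRing O] (ι : O →+* ℂ) (φ : O →+* κ)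
    (k : ℤ) : Prop :=
  ∀ (f : ModularForm 𝒮ℒ k) (a : PowerSeries O), PowerSeries.map ι a = qExpansion 1 f →
    ∃ F : MvPolynomial (Fin 2) κ, MvPolynomial.IsWeightedHomogeneous wt F k.toNat ∧
      (k < 0 → F = 0) ∧ evK κ F = PowerSeries.map φ a

lemma millerAt_of_forall_eq_zero (ι : O →+* ℂ) (hι : Function.Injective ι) (φ : O →+* κ)
    {k : ℤ} (h : ∀ f : ModularForm 𝒮ℒ k, f = 0) : MillerAt κ ι φ k := by
  intro f a ha
  have := series_eq_zero_of_form_eq_zero ι hι f (h f) a ha
  subst this
  exact ⟨0, MvPolynomial.isWeightedHomogeneous_zero _ _ _, fun _ => rfl, by simp⟩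

lemma millerAt_neg (ι : O →+* ℂ) (hι : Function.Injective ι) (φ : O →+* κ)
    {k : ℤ} (hk : k < 0) : MillerAt κ ι φ k :=
  millerAt_of_forall_eq_zero ι hι φ
    (rank_zero_iff_forall_zero.mp (levelOne_neg_weight_rank_zero hk))

lemma millerAt_step (ι : O →+* ℂ) (φ : O →+* κ) (h1728 : (1728 : κ) ≠ 0)
    {k : ℤ} (hk : 0 ≤ k) (a' b' : ℕ) (hab : (4 * a' + 6 * b' : ℤ) = k)
    (IH : MillerAt κ ι φ (k - 12)) : MillerAt κ ι φ k := by
  intro f a ha
  set M := monoForm k a' b' hab with hM
  set c₀ : O := PowerSeries.constantCoeff a with hc₀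
  have hc : (qExpansion 1 f).coeff 0 = ι c₀ := by
    rw [← ha, PowerSeries.coeff_map, PowerSeries.coeff_zero_eq_constantCoeff]
  have h0 : (qExpansion 1 ((f - ι c₀ • M : ModularForm 𝒮ℒ k) : ℍ → ℂ)).coeff 0 = 0 := by
    rw [FunLike.coe_sub, ModularForm.qExpansion_sub one_pos one_mem_strictPeriods_SL,
      FunLike.coe_smul, ModularForm.qExpansion_smul one_pos one_mem_strictPeriods_SL, map_sub,
      PowerSeries.coeff_smul, qExpansion_monoForm_coeff_zero, smul_eq_mul, mul_one, hc, sub_self]
  set g := CuspForm.discriminantEquiv (toCuspForm (f - ι c₀ • M) h0) with hg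
  have hq : qExpansion 1 ((f - ι c₀ • M : ModularForm 𝒮ℒ k) : ℍ → ℂ) =
      qExpansion 1 discriminant * qExpansion 1 g :=
    qExpansion_eq_qExpansion_discriminant_mul _ h0
  set mO : PowerSeries O := zmap O (e4Z ^ a' * e6Z ^ b') with hmO
  set aO : PowerSeries O := a - PowerSeries.C c₀ * mO with haO
  have hmap : PowerSeries.map ι aO =
      qExpansion 1 ((f - ι c₀ • M : ModularForm 𝒮ℒ k) : ℍ → ℂ) := by
    rw [FunLike.coe_sub, ModularForm.qExpansion_sub one_pos one_mem_strictPeriods_SL,
      FunLike.coe_smul, ModularForm.qExpansion_smul one_pos one_mem_strictPeriods_SL,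
      qExpansion_monoForm, qExpansion_E₄_eq, qExpansion_E₆_eq, haO, map_sub, map_mul,
      PowerSeries.map_C, ha, hmO, map_zmap, map_mul, map_pow, map_pow]
    congr 1
    ext n
    rw [PowerSeries.coeff_C_mul, PowerSeries.coeff_smul, smul_eq_mul]
  set bO : PowerSeries O := PowerSeries.mk fun n => PowerSeries.coeff (n + 1) aO with hbO
  have hconst : PowerSeries.constantCoeff aO = 0 := by
    rw [haO, map_sub, map_mul, PowerSeries.constantCoeff_C, hmO]
    rw [map_mul, map_pow, map_pow, map_mul, map_pow, map_pow, constantCoeff_zmap,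
      constantCoeff_zmap, constantCoeff_e4Z, constantCoeff_e6Z, ← hc₀]
    simp
  have haOb : aO = PowerSeries.X * bO := by
    ext n
    rcases n with _ | n
    · simp [hconst]
    · rw [PowerSeries.coeff_succ_X_mul, hbO, PowerSeries.coeff_mk]
  set hO : PowerSeries O := bO * zmap O ModularCurve.dedekindEtaUnitInv with hhO
  have hmapH : PowerSeries.map ι hO = qExpansion 1 g := by
    have h1 : PowerSeries.X * PowerSeries.map ι bO =
        PowerSeries.X * (zmap ℂ ModularCurve.dedekindEtaUnit * qExpansion 1 g) := by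
      rw [← PowerSeries.map_X ι, ← map_mul, ← haOb, hmap, hq, qExpansion_discriminant_eq, deltaZ,
        map_mul, PowerSeries.map_X, PowerSeries.map_X, mul_assoc]
    have h2 := mul_left_cancel₀ PowerSeries.X_ne_zero h1
    rw [hhO, map_mul, map_zmap, h2, mul_comm (zmap ℂ ModularCurve.dedekindEtaUnit) _, mul_assoc,
      ← map_mul, ModularCurve.dedekindEtaUnit_mul_inv, map_one, mul_one]
  obtain ⟨H, hH, hH0, hHev⟩ := IH g hO hmapH
  refine ⟨MvPolynomial.C (φ c₀) * (MvPolynomial.X 0 ^ a' * MvPolynomial.X 1 ^ b') +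
    MvPolynomial.C ((1728 : κ)⁻¹) * (dlt * H), ?_, fun h => absurd hk (not_le.mpr h), ?_⟩
  · have hw1 : MvPolynomial.IsWeightedHomogeneous wt
        (MvPolynomial.X 0 ^ a' * MvPolynomial.X 1 ^ b' : MvPolynomial (Fin 2) κ) k.toNat := by
      have := ((isWH_X0 (κ := κ)).pow a').mul ((isWH_X1 (κ := κ)).pow b')
      have e : a' • 4 + b' • 6 = k.toNat := by
        simp only [smul_eq_mul]
        omega
      rwa [e] at this
    have hw2 : MvPolynomial.IsWeightedHomogeneous wt (dlt * H) k.toNat := by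
      rcases lt_or_ge (k - 12) 0 with hneg | hnn
      · rw [hH0 hneg, mul_zero]
        exact MvPolynomial.isWeightedHomogeneous_zero _ _ _
      · have := (isWH_dlt (κ := κ)).mul hH
        have e : 12 + (k - 12).toNat = k.toNat := by omega
        rwa [e] at this
    exact (hw1.C_mul _).add (hw2.C_mul _)
  · rw [map_add, map_mul, map_mul, map_mul, map_mul, map_pow, map_pow, evK_X0, evK_X1, evK_C,
      evK_C, evK_dlt, hHev, hhO, map_mul, map_zmap]
    have e1 : PowerSeries.C ((1728 : κ)⁻¹) * (1728 * zmap κ deltaZ *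
        (PowerSeries.map φ bO * zmap κ ModularCurve.dedekindEtaUnitInv)) =
        PowerSeries.map φ aO := by
      have hC : PowerSeries.C ((1728 : κ)⁻¹) * (1728 : PowerSeries κ) = 1 := by
        rw [← map_ofNat (PowerSeries.C (R := κ)) 1728, ← map_mul, inv_mul_cancel₀ h1728, map_one]
      have hη : zmap κ ModularCurve.dedekindEtaUnit * zmap κ ModularCurve.dedekindEtaUnitInv =
          1 := by
        rw [← map_mul, ModularCurve.dedekindEtaUnit_mul_inv, map_one]
      rw [haOb, map_mul, PowerSeries.map_X, deltaZ, map_mul, PowerSeries.map_X]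
      calc PowerSeries.C ((1728 : κ)⁻¹) * (1728 * (PowerSeries.X * zmap κ ModularCurve.dedekindEtaUnit) *
            (PowerSeries.map φ bO * zmap κ ModularCurve.dedekindEtaUnitInv))
          = (PowerSeries.C ((1728 : κ)⁻¹) * 1728) * (zmap κ ModularCurve.dedekindEtaUnit *
              zmap κ ModularCurve.dedekindEtaUnitInv) * (PowerSeries.X * PowerSeries.map φ bO) := by
            ring
        _ = PowerSeries.X * PowerSeries.map φ bO := by rw [hC, hη, one_mul, one_mul]
    rw [e1, haO, map_sub, map_mul, PowerSeries.map_C, hmO, map_zmap, map_mul, map_pow, map_pow]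
    ring

/-- **Integral Miller basis, reduced to `κ`.** -/
theorem millerAt_all (ι : O →+* ℂ) (hι : Function.Injective ι) (φ : O →+* κ)
    (h1728 : (1728 : κ) ≠ 0) : ∀ (n : ℕ) (k : ℤ), k.toNat = n → MillerAt κ ι φ k := by
  intro n
  induction n using Nat.strong_induction_on with
  | _ n ih =>
  intro k hkn
  rcases lt_or_ge k 0 with hneg | hnn
  · exact millerAt_neg ι hι φ hneg
  rcases Int.even_or_odd k with hev | hodd
  swap
  · exact millerAt_of_forall_eq_zero ι hι φ (ModularForm.levelOne_odd_weight_eq_zero hodd)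
  rcases lt_or_ge k 4 with hlt | hge
  · have hk02 : k = 0 ∨ k = 2 := by
      obtain ⟨m, hm⟩ := hev
      omega
    rcases hk02 with rfl | rfl
    · exact millerAt_step ι φ h1728 le_rfl 0 0 (by norm_num)
        (millerAt_neg ι hι φ (by norm_num))
    · exact millerAt_of_forall_eq_zero ι hι φ
        (rank_zero_iff_forall_zero.mp levelOne_weight_two_rank_zero)
  · obtain ⟨a', b', hab⟩ := exists_monoForm_of_even hge hev
    exact millerAt_step ι φ h1728 hnn a' b' hab (ih (k - 12).toNat (by omega) (k - 12) rfl)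

theorem miller (ι : O →+* ℂ) (hι : Function.Injective ι) (φ : O →+* κ)
    (h1728 : (1728 : κ) ≠ 0) (k : ℤ) (f : ModularForm 𝒮ℒ k) (a : PowerSeries O)
    (ha : PowerSeries.map ι a = qExpansion 1 f) :
    ∃ F : MvPolynomial (Fin 2) κ, MvPolynomial.IsWeightedHomogeneous wt F k.toNat ∧
      evK κ F = PowerSeries.map φ a := by
  obtain ⟨F, h1, -, h2⟩ := millerAt_all ι hι φ h1728 _ k rfl f a ha
  exact ⟨F, h1, h2⟩

end

end Fermat.Agent.SwD
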