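/-
Swinnerton-Dyer at level one (piece "SwD" for S16): assembly.
A level one form of weight `k` whose `q`-expansion has coefficients in a ring `O` and reduces to a
nonzero constant in a field `κ` of characteristic `ℓ ≥ 5` has weight divisible by `ℓ - 1`,
provided `E_{ℓ-1}` has coefficients in `O` and reduces to `1`.
-/
import Fermat.Agent.S16.SwD.Miller

set_option autoImplicit false

namespace Fermat.Agent.SwD

open UpperHalfPlane ModularForm ModularFormClass MatrixGroups EisensteinSeries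
open Fermat.Agent.S16SwD (wt alg_core)

section

variable {κ : Type*} [Field κ]

lemma ne_zero_1728 (ℓ : ℕ) [hℓ : Fact ℓ.Prime] [CharP κ ℓ] (h5 : 5 ≤ ℓ) : (1728 : κ) ≠ 0 := by
  have h : ((1728 : ℕ) : κ) ≠ 0 := by
    rw [Ne, CharP.cast_eq_zero_iff κ ℓ]
    intro hdvd
    have h1 : ℓ ∣ 2 ^ 6 * 3 ^ 3 := by simpa using hdvd
    rcases (Nat.Prime.dvd_mul hℓ.out).mp h1 with h2 | h3
    · have := Nat.le_of_dvd (by norm_num) (hℓ.out.dvd_of_dvd_pow h2)
      omega
    · have := Nat.le_of_dvd (by norm_num) (hℓ.out.dvd_of_dvd_pow h3)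
      omega
  exact_mod_cast h

lemma zmap_deltaZ_ne_zero : zmap κ deltaZ ≠ 0 := by
  intro h
  have h1 := congrArg (PowerSeries.coeff 1) h
  rw [deltaZ, map_mul, PowerSeries.map_X, PowerSeries.coeff_succ_X_mul,
    PowerSeries.coeff_zero_eq_constantCoeff_apply, constantCoeff_zmap,
    ModularCurve.constantCoeff_dedekindEtaUnit] at h1
  simp at h1

/-- **Swinnerton-Dyer, general coefficient ring.** -/
theorem sub_one_dvd_weight_of_const (hR : RamanujanE2)
    (ℓ : ℕ) [hℓ : Fact ℓ.Prime] (h5 : 5 ≤ ℓ) [CharP κ ℓ]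
    {O : Type*} [CommRing O] (ι : O →+* ℂ) (hι : Function.Injective ι) (φ : O →+* κ)
    (fE : ModularForm 𝒮ℒ ((ℓ - 1 : ℕ) : ℤ)) (aE : PowerSeries O)
    (haE : PowerSeries.map ι aE = qExpansion 1 fE) (hφE : PowerSeries.map φ aE = 1)
    (k : ℤ) (f : ModularForm 𝒮ℒ k) (a : PowerSeries O)
    (ha : PowerSeries.map ι a = qExpansion 1 f)
    (c : κ) (hc : c ≠ 0) (hφ : PowerSeries.map φ a = PowerSeries.C c) :
    ((ℓ : ℤ) - 1) ∣ k := by
  have h1728 : (1728 : κ) ≠ 0 := ne_zero_1728 ℓ h5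
  obtain ⟨A, hA, hA1⟩ := miller ι hι φ h1728 _ fE aE haE
  obtain ⟨F, hF, hF1⟩ := miller ι hι φ h1728 k f a ha
  rw [hφE] at hA1
  rw [hφ] at hF1
  rw [Int.toNat_natCast] at hA
  have hδ : zmap κ e4Z ^ 3 - zmap κ e6Z ^ 2 ≠ 0 := by
    rw [← delta_map]
    refine mul_ne_zero ?_ zmap_deltaZ_ne_zero
    rw [← map_ofNat (PowerSeries.C (R := κ)) 1728]
    intro h
    exact h1728 (PowerSeries.C_injective (by rw [h, map_zero]))
  have hdvd : (ℓ - 1) ∣ k.toNat :=
    alg_core ℓ h5 (zmap κ e2Z) (zmap κ e4Z) (zmap κ e6Z)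
      (by rw [constantCoeff_zmap, constantCoeff_e2Z]; simp)
      (by rw [constantCoeff_zmap, constantCoeff_e4Z]; simp)
      (by rw [constantCoeff_zmap, constantCoeff_e6Z]; simp) hδ
      (by rw [← thetaOp_eq_X_mul_derivative]; exact ram2_map hR)
      (by rw [← thetaOp_eq_X_mul_derivative]; exact ram4_map)
      (by rw [← thetaOp_eq_X_mul_derivative]; exact ram6_map)
      A hA hA1 F hF c hc hF1
  have hk0 : 0 ≤ k := by
    by_contra hneg
    have hf0 : f = 0 :=
      rank_zero_iff_forall_zero.mp (levelOne_neg_weight_rank_zero (not_le.mp hneg)) f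
    have ha0 := series_eq_zero_of_form_eq_zero ι hι f hf0 a ha
    rw [ha0, map_zero] at hφ
    exact hc (PowerSeries.C_injective (by rw [← hφ, map_zero]))
  have h1 : ((ℓ : ℤ) - 1) = ((ℓ - 1 : ℕ) : ℤ) := by
    have := hℓ.out.one_lt
    omega
  rw [h1, ← Int.toNat_of_nonneg hk0]
  exact_mod_cast hdvd

end

end Fermat.Agent.SwD
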