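import Mathlib
import Fermat.Agent.S16.SwD.RamZ
import Fermat.Agent.S20.Ramanujan

namespace Fermat.Agent.S16SwD

open UpperHalfPlane ModularForm EisensteinSeries Filter
open scoped MatrixGroups ModularForm Manifold Derivative Topology

local notation "𝕢" => Function.Periodic.qParam

/-- `D₂ γ` is holomorphic. -/
lemma mdiff_D2 (γ : SL(2, ℤ)) : MDiff (D2 γ) := by
  intro z
  rw [mdifferentiableAt_iff]
  have h1 := (hasDerivAt_denom_zpow (γ : GL (Fin 2) ℝ) (-1) z).differentiableAt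
  have h2 : DifferentiableAt ℂ (fun w : ℂ => 2 * Real.pi * Complex.I * (γ 1 0 : ℂ) *
      denom (γ : GL (Fin 2) ℝ) w ^ (-1 : ℤ)) z := h1.const_mul _
  refine h2.congr_of_eventuallyEq ?_
  filter_upwards [isOpen_upperHalfPlaneSet.mem_nhds z.im_pos] with w hw
  simp only [Function.comp_apply, ofComplex_apply_of_im_pos hw, D2, zpow_neg_one]
  simp [div_eq_mul_inv]

/-- `D (D₂ γ) = - c² / (cz + d)²`. -/
lemma D_D2 (γ : SL(2, ℤ)) (z : ℍ) :
    D (D2 γ) z = -((γ 1 0 : ℂ)) ^ 2 / (denom (γ : GL (Fin 2) ℝ) z) ^ 2 := by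
  have h1 := hasDerivAt_denom_zpow (γ : GL (Fin 2) ℝ) (-1) z
  have h2 : HasDerivAt (fun w : ℂ => 2 * Real.pi * Complex.I * (γ 1 0 : ℂ) *
      denom (γ : GL (Fin 2) ℝ) w ^ (-1 : ℤ))
      (2 * Real.pi * Complex.I * (γ 1 0 : ℂ) * (((-1 : ℤ) : ℂ) * ((γ : GL (Fin 2) ℝ) 1 0 : ℂ) *
        denom (γ : GL (Fin 2) ℝ) z ^ ((-1 : ℤ) - 1))) z := h1.const_mul _
  have h3 : (D2 γ ∘ ofComplex) =ᶠ[𝓝 (z : ℂ)] (fun w : ℂ => 2 * Real.pi * Complex.I * (γ 1 0 : ℂ) *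
      denom (γ : GL (Fin 2) ℝ) w ^ (-1 : ℤ)) := by
    filter_upwards [isOpen_upperHalfPlaneSet.mem_nhds z.im_pos] with w hw
    simp only [Function.comp_apply, ofComplex_apply_of_im_pos hw, D2, zpow_neg_one]
    simp [div_eq_mul_inv]
  rw [Derivative.normalizedDerivOfComplex, h3.deriv_eq, h2.deriv]
  have hz := denom_ne_zero (γ : GL (Fin 2) ℝ) z
  have hpi : (2 * (Real.pi : ℂ) * Complex.I) ≠ 0 := by simp [Real.pi_ne_zero]
  have e : ((-1 : ℤ) - 1) = -2 := by norm_num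
  rw [e, zpow_neg, zpow_ofNat]
  have hc : ((γ : GL (Fin 2) ℝ) 1 0 : ℂ) = (γ 1 0 : ℂ) := by simp
  rw [hc]
  field_simp
  push_cast
  ring


/-- The weight-4 combination `D E₂ - E₂² / 12`. -/
noncomputable def gE2 : ℍ → ℂ := fun z => D E2 z - 12⁻¹ * (E2 z * E2 z)

lemma gE2_mdiff : MDiff gE2 := by
  have h1 : MDiff (D E2) := Derivative.normalizedDerivOfComplex_mdifferentiable E2_mdifferentiable
  have h2 : MDiff (fun z => (12 : ℂ)⁻¹ * (E2 z * E2 z)) :=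
    MDifferentiable.mul mdifferentiable_const (E2_mdifferentiable.mul E2_mdifferentiable)
  exact h1.sub h2

lemma gE2_slash (γ : SL(2, ℤ)) : gE2 ∣[(4 : ℤ)] γ = gE2 := by
  have hD2 : MDiff (D2 γ) := mdiff_D2 γ
  have hc0 : MDiff ((1 / (2 * riemannZeta 2)) • D2 γ) := by
    have : MDiff (fun z => (1 / (2 * riemannZeta 2)) * D2 γ z) :=
      MDifferentiable.mul mdifferentiable_const hD2
    exact this
  -- `D (E2 ∣[2] γ)` in two ways
  have hA := Derivative.normalizedDerivOfComplex_SL_slash (k := 2) E2_mdifferentiable (γ := γ)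
  have hB : D (E2 ∣[(2 : ℤ)] γ) = D E2 - (1 / (2 * riemannZeta 2)) • D (D2 γ) := by
    rw [E2_slash_action, Derivative.normalizedDerivOfComplex_sub _ _ E2_mdifferentiable hc0,
      Derivative.normalizedDerivOfComplex_smul _ _ hD2]
  have hE : (E2 * E2) ∣[(4 : ℤ)] γ = (E2 ∣[(2 : ℤ)] γ) * (E2 ∣[(2 : ℤ)] γ) := by
    have := ModularForm.mul_slash_SL2 2 2 γ E2 E2
    simpa using this
  ext z
  have hA' := congrFun hA z
  have hB' := congrFun hB z
  have hE' := congrFun hE z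
  have hS := congrFun (E2_slash_action γ) z
  simp only [Pi.sub_apply, Pi.smul_apply, Pi.mul_apply, smul_eq_mul] at hA' hB' hE' hS
  rw [hB'] at hA'
  have hg : (gE2 ∣[(4 : ℤ)] γ) z
      = ((D E2) ∣[(4 : ℤ)] γ) z - 12⁻¹ * ((E2 * E2) ∣[(4 : ℤ)] γ) z := by
    simp only [ModularForm.SL_slash_def, gE2, Pi.mul_apply]
    ring
  rw [hg, hE']
  have hDD := D_D2 γ z
  have hz := denom_ne_zero (γ : GL (Fin 2) ℝ) z
  have hpi : (Real.pi : ℂ) ≠ 0 := by simp [Real.pi_ne_zero]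
  have hI : Complex.I ≠ 0 := Complex.I_ne_zero
  have h24 : ((2 : ℤ) + 2) = 4 := by norm_num
  rw [h24] at hA'
  have hDE : ((D E2) ∣[(4 : ℤ)] γ) z = D E2 z - 1 / (2 * riemannZeta 2) * D (D2 γ) z
      + ((2 : ℤ) : ℂ) * (2 * Real.pi * Complex.I)⁻¹ * ((γ 1 0 : ℂ) / denom (γ : GL (Fin 2) ℝ) z)
        * (E2 ∣[(2 : ℤ)] γ) z := by
    rw [hA']; ring
  rw [hDE, hS, hDD, riemannZeta_two]
  simp only [gE2, D2]
  field_simp
  linear_combination (-72 * Complex.I * (γ 1 0 : ℂ) ^ 2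
    + 24 * Real.pi * denom (γ : GL (Fin 2) ℝ) z * (γ 1 0 : ℂ) * E2 z) * Complex.I_sq

lemma gE2_tendsto : Tendsto gE2 atImInfty (𝓝 (-(12 : ℂ)⁻¹)) := by
  have hD : Tendsto (D E2) atImInfty (𝓝 0) :=
    Fermat.Agent.S20.ramanujanAux_isZeroAtImInfty_D Fermat.Agent.S20.ramanujanAux_periodic_E2
      E2_mdifferentiable isBoundedAtImInfty_E2
  have hE := Fermat.Agent.S20.ramanujanAux_tendsto_E2
  have h1 : Tendsto (fun z : ℍ => D E2 z - 12⁻¹ * (E2 z * E2 z)) atImInfty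
      (𝓝 (0 - 12⁻¹ * (1 * 1))) := hD.sub ((hE.mul hE).const_mul _)
  have h2 : (-(12 : ℂ)⁻¹) = 0 - 12⁻¹ * (1 * 1) := by norm_num
  rw [h2]
  exact h1

/-- `D E₂ - E₂² / 12` as a level one modular form of weight `4`. -/
noncomputable def gE2MF : ModularForm 𝒮ℒ ((4 : ℕ) : ℤ) where
  toFun := gE2
  slash_action_eq' := by
    rintro _ ⟨γ, rfl⟩
    exact gE2_slash γ
  holo' := gE2_mdiff
  bdd_at_cusps' {c} hc := by
    rw [OnePoint.isBoundedAt_iff_forall_SL2Z hc]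
    intro γ _
    have := gE2_slash γ
    simp only [Nat.cast_ofNat]
    rw [this]
    exact gE2_tendsto.isBigO_one ℝ

@[simp] lemma gE2MF_apply (z : ℍ) : gE2MF z = D E2 z - 12⁻¹ * (E2 z * E2 z) := rfl

/-- **Ramanujan's identity for `E₂`**: `D E₂ = (E₂² - E₄) / 12`. -/
theorem ramanujan_E2 : D E2 = (12 : ℂ)⁻¹ • (E2 * E2 - ⇑E₄) := by
  have hE4 : (E₄ : ModularForm 𝒮ℒ ((4 : ℕ) : ℤ)) ≠ 0 := E_ne_zero (by norm_num) (by decide)
  obtain ⟨c, hc⟩ := Fermat.Agent.S20.ramanujanAux_exists_smul (k := 4) (by decide) (by decide)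
    (by norm_num) E₄ hE4 gE2MF
  have hpt : ∀ z : ℍ, c * E₄ z = D E2 z - 12⁻¹ * (E2 z * E2 z) := by
    intro z
    have := congrArg (fun f : ModularForm 𝒮ℒ ((4 : ℕ) : ℤ) => f z) hc
    simp only [smul_apply, smul_eq_mul] at this
    rw [this]
    rfl
  have hlim1 : Tendsto (fun z : ℍ => c * E₄ z) atImInfty (𝓝 (c * 1)) :=
    (Fermat.Agent.S20.ramanujanAux_tendsto_E (k := 4) (by norm_num) (by decide)).const_mul c
  have hlim3 : Tendsto (fun z : ℍ => c * E₄ z) atImInfty (𝓝 (-(12 : ℂ)⁻¹)) := by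
    refine gE2_tendsto.congr fun z => ?_
    rw [hpt z]
    rfl
  have hcval : c * 1 = -(12 : ℂ)⁻¹ := tendsto_nhds_unique hlim1 hlim3
  rw [mul_one] at hcval
  ext z
  have h := hpt z
  rw [hcval] at h
  simp only [Pi.smul_apply, Pi.sub_apply, Pi.mul_apply, smul_eq_mul]
  linear_combination -h


end Fermat.Agent.S16SwD

namespace Fermat.Agent.SwD

/-- PIECE B: Ramanujan's identity for `E₂`, in the form required by `RamZ.lean`. -/
theorem ramanujanE2 : RamanujanE2 := Fermat.Agent.S16SwD.ramanujan_E2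

end Fermat.Agent.SwD
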