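import Mathlib

/-!
# `ℓ`-integral rationals, reduction mod `ℓ`, and `2 (ℓ - 1) / B_{ℓ - 1} ≡ 0 mod ℓ`

PIECE A of the Swinnerton-Dyer piece of S16 (pure arithmetic, Mathlib only).
-/

namespace Fermat.Agent.S16SwD

open Finset

section RatInt

variable (ℓ : ℕ) [hℓ : Fact ℓ.Prime]

/-- The subring of `ℓ`-integral rationals. -/
def ratInt : Subring ℚ := (Rat.padicValuation ℓ).integer

variable {ℓ}

theorem mem_ratInt_iff {x : ℚ} : x ∈ ratInt ℓ ↔ ¬ ℓ ∣ x.den := by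
  rw [ratInt, Valuation.mem_integer_iff]
  exact Rat.padicValuation_le_one_iff

lemma natCast_den_ne_zero_of_mem {x : ℚ} (hx : x ∈ ratInt ℓ) : ((x.den : ℕ) : ZMod ℓ) ≠ 0 := by
  rw [Ne, ZMod.natCast_eq_zero_iff]
  exact mem_ratInt_iff.mp hx

lemma intCast_mem_ratInt (n : ℤ) : (n : ℚ) ∈ ratInt ℓ := by
  rw [mem_ratInt_iff, Rat.den_intCast]
  exact hℓ.out.not_dvd_one

lemma natCast_mem_ratInt (n : ℕ) : (n : ℚ) ∈ ratInt ℓ := by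
  rw [mem_ratInt_iff, Rat.den_natCast]
  exact hℓ.out.not_dvd_one

/-- An `ℓ`-adic unit has `ℓ`-integral inverse. -/
lemma inv_mem_ratInt {x : ℚ} (hx : ¬ (ℓ : ℤ) ∣ x.num) : x⁻¹ ∈ ratInt ℓ := by
  rw [mem_ratInt_iff]
  intro h
  apply hx
  have h1 : ((x⁻¹).den : ℤ) ∣ x.num := by
    rw [Rat.inv_def]
    exact Rat.den_dvd _ _
  exact (Int.natCast_dvd_natCast.mpr h).trans h1

variable (ℓ)

/-- Reduction modulo `ℓ` on `ℓ`-integral rationals. -/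
def ratIntToZMod : ratInt ℓ →+* ZMod ℓ where
  toFun x := ((x : ℚ) : ZMod ℓ)
  map_one' := by simp
  map_mul' x y := by
    simpa using Rat.cast_mul_of_ne_zero (natCast_den_ne_zero_of_mem x.2)
      (natCast_den_ne_zero_of_mem y.2)
  map_zero' := by simp
  map_add' x y := by
    simpa using Rat.cast_add_of_ne_zero (natCast_den_ne_zero_of_mem x.2)
      (natCast_den_ne_zero_of_mem y.2)

theorem ratIntToZMod_apply (x : ratInt ℓ) : ratIntToZMod ℓ x = ((x : ℚ) : ZMod ℓ) := rfl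

theorem ratIntToZMod_eq_zero_iff (x : ratInt ℓ) :
    ratIntToZMod ℓ x = 0 ↔ (ℓ : ℤ) ∣ (x : ℚ).num := by
  rw [ratIntToZMod_apply, Rat.cast_def, div_eq_zero_iff,
    or_iff_left (natCast_den_ne_zero_of_mem x.2), ZMod.intCast_zmod_eq_zero_iff_dvd]

theorem ratIntToZMod_natCast (n : ℕ) :
    ratIntToZMod ℓ ⟨(n : ℚ), natCast_mem_ratInt n⟩ = (n : ZMod ℓ) := by
  simp [ratIntToZMod_apply]

theorem ratIntToZMod_intCast (n : ℤ) :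
    ratIntToZMod ℓ ⟨(n : ℚ), intCast_mem_ratInt n⟩ = (n : ZMod ℓ) := by
  simp [ratIntToZMod_apply]

end RatInt

section Bernoulli

variable {ℓ : ℕ} [hℓ : Fact ℓ.Prime]

/-- By von Staudt–Clausen, `ℓ * B_{ℓ-1} ≡ -1 mod ℓ`; hence `2 (ℓ - 1) / B_{ℓ - 1}` is
`ℓ`-integral and reduces to `0` modulo `ℓ`. -/
theorem exists_bernoulli_ratio (hℓ3 : 3 ≤ ℓ) :
    ∃ y : ratInt ℓ, ratIntToZMod ℓ y = 0 ∧
      (y : ℚ) = 2 * ((ℓ - 1 : ℕ) : ℚ) / bernoulli (ℓ - 1) := by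
  have hp : ℓ.Prime := hℓ.out
  have hodd : Odd ℓ := hp.odd_of_ne_two (by omega)
  obtain ⟨k, hk⟩ := hodd
  have hk' : ℓ - 1 = 2 * k := by omega
  obtain ⟨n, hn⟩ := Bernoulli.vonStaudt_clausen k
  set F : Finset ℕ := (range (2 * k + 2)).filter (fun p => p.Prime ∧ (p - 1) ∣ 2 * k) with hF
  have hmem : ℓ ∈ F := by
    rw [hF, Finset.mem_filter, Finset.mem_range]
    refine ⟨by omega, hp, ?_⟩
    rw [hk']
  have hsplit := Finset.add_sum_erase F (fun p : ℕ => (1 : ℚ) / p) hmem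
  have hS' : (∑ p ∈ F.erase ℓ, (1 : ℚ) / p) ∈ ratInt ℓ := by
    refine Subring.sum_mem _ fun p hpF => ?_
    rw [Finset.mem_erase, hF, Finset.mem_filter] at hpF
    obtain ⟨hne, -, hpp, -⟩ := hpF
    rw [one_div]
    apply inv_mem_ratInt
    rw [Rat.num_natCast, Int.natCast_dvd_natCast, Nat.prime_dvd_prime_iff_eq hp hpp]
    exact fun h => hne h.symm
  have hℓ0 : (ℓ : ℚ) ≠ 0 := Nat.cast_ne_zero.mpr hp.ne_zero
  -- `Y = ℓ * B_{ℓ-1}` as an element of `ratInt ℓ`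
  let Y : ratInt ℓ := ⟨(ℓ : ℚ), natCast_mem_ratInt ℓ⟩ *
    (⟨(n : ℚ), intCast_mem_ratInt n⟩ - ⟨_, hS'⟩) - 1
  have hY : (Y : ℚ) = (ℓ : ℚ) * bernoulli (ℓ - 1) := by
    have h1 : bernoulli (2 * k) = (n : ℚ) - (1 / (ℓ : ℚ) + ∑ p ∈ F.erase ℓ, (1 : ℚ) / p) := by
      rw [hsplit]
      linear_combination -hn
    rw [hk', h1]
    show (ℓ : ℚ) * ((n : ℚ) - ∑ p ∈ F.erase ℓ, (1 : ℚ) / p) - 1 = _
    field_simp
    ring
  have hφY : ratIntToZMod ℓ Y = -1 := by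
    have h1 : ratIntToZMod ℓ ⟨(ℓ : ℚ), natCast_mem_ratInt ℓ⟩ = 0 := by
      rw [ratIntToZMod_natCast, ZMod.natCast_self]
    simp only [Y, map_sub, map_mul, map_one, h1, zero_mul, zero_sub]
  have hYnum : ¬ (ℓ : ℤ) ∣ (Y : ℚ).num := by
    rw [← ratIntToZMod_eq_zero_iff, hφY]
    exact neg_ne_zero.mpr one_ne_zero
  let Yinv : ratInt ℓ := ⟨(Y : ℚ)⁻¹, inv_mem_ratInt hYnum⟩
  refine ⟨⟨((2 * (ℓ - 1 : ℕ) : ℕ) : ℚ), natCast_mem_ratInt _⟩ *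
    ⟨(ℓ : ℚ), natCast_mem_ratInt ℓ⟩ * Yinv, ?_, ?_⟩
  · have h1 : ratIntToZMod ℓ ⟨(ℓ : ℚ), natCast_mem_ratInt ℓ⟩ = 0 := by
      rw [ratIntToZMod_natCast, ZMod.natCast_self]
    rw [map_mul, map_mul, h1, mul_zero, zero_mul]
  · show ((2 * (ℓ - 1 : ℕ) : ℕ) : ℚ) * (ℓ : ℚ) * (Y : ℚ)⁻¹ = _
    rw [hY, mul_inv, div_eq_mul_inv]
    push_cast
    have : (2 * ((ℓ - 1 : ℕ) : ℚ)) * (ℓ : ℚ) * ((ℓ : ℚ)⁻¹ * (bernoulli (ℓ - 1))⁻¹)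
        = 2 * ((ℓ - 1 : ℕ) : ℚ) * ((ℓ : ℚ) * (ℓ : ℚ)⁻¹) * (bernoulli (ℓ - 1))⁻¹ := by ring
    rw [this, mul_inv_cancel₀ hℓ0, mul_one]

theorem bernoulli_ratio_mem (hℓ3 : 3 ≤ ℓ) :
    (2 * ((ℓ - 1 : ℕ) : ℚ) / bernoulli (ℓ - 1)) ∈ ratInt ℓ := by
  obtain ⟨y, -, hy⟩ := exists_bernoulli_ratio (ℓ := ℓ) hℓ3
  rw [← hy]
  exact y.2

theorem bernoulli_ratio_num (hℓ3 : 3 ≤ ℓ) :
    (ℓ : ℤ) ∣ (2 * ((ℓ - 1 : ℕ) : ℚ) / bernoulli (ℓ - 1)).num := by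
  obtain ⟨y, hy0, hy⟩ := exists_bernoulli_ratio (ℓ := ℓ) hℓ3
  rw [← hy]
  exact (ratIntToZMod_eq_zero_iff ℓ y).mp hy0

end Bernoulli

end Fermat.Agent.S16SwD
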