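/-
Swinnerton-Dyer at level one (piece "SwD" for S16): the contract `SwDConst ℓ` of `S16/Defs.lean`,
from the general theorem of `Main.lean`, given
* Ramanujan's identity for `E₂` (`RamanujanE2`), and
* the ring `O` of `ℓ`-integral rationals with its reduction map to `ZMod ℓ`, and the fact
  (von Staudt-Clausen) that `2(ℓ-1)/B_{ℓ-1}` lies in `ℓ O`.
-/
import Fermat.Agent.S16.SwD.Main
import Fermat.Agent.S16.Defs

set_option autoImplicit false

namespace Fermat.Agent.SwD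

open UpperHalfPlane ModularForm ModularFormClass MatrixGroups EisensteinSeries
open Fermat.Agent.S16 (SwDConst)

theorem swdConst_of (hR : RamanujanE2) (ℓ : ℕ) [hℓ : Fact ℓ.Prime] (h5 : 5 ≤ ℓ)
    (O : Subring ℚ) (hO : ∀ x : ℚ, ¬ ℓ ∣ x.den → x ∈ O) (φ : O →+* ZMod ℓ)
    (hφ : ∀ x : O, φ x = 0 ↔ (ℓ : ℤ) ∣ (x : ℚ).num)
    (hB1 : (2 * ((ℓ - 1 : ℕ) : ℚ) / bernoulli (ℓ - 1)) ∈ O)
    (hB2 : (ℓ : ℤ) ∣ (2 * ((ℓ - 1 : ℕ) : ℚ) / bernoulli (ℓ - 1)).num) : SwDConst ℓ := by
  intro k e a ha hden hnum h0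
  set ι : O →+* ℂ := (algebraMap ℚ ℂ).comp O.subtype with hι
  have hιinj : Function.Injective ι := by
    intro x y hxy
    apply Subtype.val_injective
    exact (algebraMap ℚ ℂ).injective hxy
  -- the Eisenstein series `E_{ℓ-1}`
  have hk3 : 3 ≤ ℓ - 1 := by omega
  have hodd : Odd ℓ := hℓ.out.odd_of_ne_two (by omega)
  have hk2 : Even (ℓ - 1) := by
    obtain ⟨m, hm⟩ := hodd
    exact ⟨m, by omega⟩
  set β : O := ⟨2 * ((ℓ - 1 : ℕ) : ℚ) / bernoulli (ℓ - 1), hB1⟩ with hβ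
  have hφβ : φ β = 0 := (hφ β).mpr hB2
  set aE : PowerSeries O :=
    PowerSeries.mk fun n => if n = 0 then 1 else -β * ((ArithmeticFunction.sigma (ℓ - 1 - 1) n : ℕ) : O)
    with haE
  have haE1 : PowerSeries.map ι aE = qExpansion 1 (E hk3) := by
    ext n
    rw [E_qExpansion_coeff hk3 hk2, PowerSeries.coeff_map, haE, PowerSeries.coeff_mk]
    by_cases hn : n = 0
    · simp [hn]
    · simp only [hn, if_false, map_mul, map_neg, map_natCast]
      congr 2
      simp [hι, hβ]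
  have haE2 : PowerSeries.map φ aE = 1 := by
    ext n
    rw [PowerSeries.coeff_map, haE, PowerSeries.coeff_mk, PowerSeries.coeff_one]
    by_cases hn : n = 0
    · simp [hn]
    · simp [hn, hφβ]
  -- the given form
  set aO : PowerSeries O := PowerSeries.mk fun n => (⟨a n, hO _ (hden n)⟩ : O) with haO
  have haO1 : PowerSeries.map ι aO = qExpansion 1 e := by
    ext n
    rw [PowerSeries.coeff_map, haO, PowerSeries.coeff_mk, ha n]
    simp [hι]
  have hc : φ ⟨a 0, hO _ (hden 0)⟩ ≠ 0 := by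
    rw [Ne, hφ]
    exact h0
  have haO2 : PowerSeries.map φ aO = PowerSeries.C (φ ⟨a 0, hO _ (hden 0)⟩) := by
    ext n
    rw [PowerSeries.coeff_map, haO, PowerSeries.coeff_mk, PowerSeries.coeff_C]
    by_cases hn : n = 0
    · simp [hn]
    · simp only [hn, if_false]
      exact (hφ _).mpr (hnum n (Nat.one_le_iff_ne_zero.mpr hn))
  exact sub_one_dvd_weight_of_const hR ℓ h5 ι hιinj φ (E hk3) aE haE1 haE2 k e aO haO1 _ hc haO2

end Fermat.Agent.SwD
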